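import Mathlib

/-!
# AN4: conjugates of a `Γ₀(N)`-invariant function, invariance of symmetric expressions

`Q N = SL(2,ℤ) ⧸ Γ₀(N)`, `conj N v c τ = v (g⁻¹ • τ)` for `c = g Γ₀(N)`.
-/

set_option autoImplicit false
noncomputable section
open Polynomial UpperHalfPlane CongruenceSubgroup
open scoped MatrixGroups

namespace Fermat.Agent.S28

/-- The coset space `SL(2,ℤ) ⧸ Γ₀(N)`. -/
abbrev Q (N : ℕ) : Type := SL(2, ℤ) ⧸ Gamma0 N

instance Q.fintype (N : ℕ) [NeZero N] : Fintype (Q N) := Subgroup.fintypeQuotientOfFiniteIndex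

instance Q.decEq (N : ℕ) : DecidableEq (Q N) := Classical.decEq _

/-- The base coset. -/
def Q.base (N : ℕ) : Q N := ((1 : SL(2, ℤ)) : Q N)

/-- `v` is invariant under `Γ₀(N)`. -/
def IsGamma0Inv (N : ℕ) (v : ℍ → ℂ) : Prop := ∀ γ ∈ Gamma0 N, ∀ τ : ℍ, v (γ • τ) = v τ

/-- `v` is invariant under `SL(2,ℤ)`. -/
def IsSL2Inv (v : ℍ → ℂ) : Prop := ∀ (γ : SL(2, ℤ)) (τ : ℍ), v (γ • τ) = v τ

/-- The conjugate of `v` attached to the coset `c = g Γ₀(N)`: `τ ↦ v (g⁻¹ τ)`. -/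
def conj (N : ℕ) (v : ℍ → ℂ) (c : Q N) : ℍ → ℂ := fun τ => v ((Quotient.out c)⁻¹ • τ)

theorem conj_mk {N : ℕ} {v : ℍ → ℂ} (hv : IsGamma0Inv N v) (g : SL(2, ℤ)) (τ : ℍ) :
    conj N v (g : Q N) τ = v (g⁻¹ • τ) := by
  unfold conj
  obtain ⟨γ, hγ⟩ := QuotientGroup.mk_out_eq_mul (Gamma0 N) g
  have : (Quotient.out (g : Q N)) = g * γ := hγ
  rw [this, mul_inv_rev, mul_smul]
  exact hv _ (inv_mem γ.2) _

theorem conj_base {N : ℕ} {v : ℍ → ℂ} (hv : IsGamma0Inv N v) : conj N v (Q.base N) = v := by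
  funext τ
  rw [Q.base, conj_mk hv]; simp

theorem conj_smul {N : ℕ} {v : ℍ → ℂ} (hv : IsGamma0Inv N v) (c : Q N) (g : SL(2, ℤ)) (τ : ℍ) :
    conj N v c (g • τ) = conj N v (g⁻¹ • c) τ := by
  induction c using QuotientGroup.induction_on with
  | H h =>
    rw [conj_mk hv, MulAction.Quotient.smul_coe, conj_mk hv, smul_eq_mul, mul_inv_rev, inv_inv,
      mul_smul]

theorem exists_conj_eq (N : ℕ) (v : ℍ → ℂ) (c : Q N) :
    ∃ g : SL(2, ℤ), (g : Q N) = c ∧ ∀ τ, conj N v c τ = v (g⁻¹ • τ) :=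
  ⟨Quotient.out c, Quotient.out_eq' c, fun _ => rfl⟩

theorem conj_mul (N : ℕ) (v w : ℍ → ℂ) (c : Q N) : conj N (v * w) c = conj N v c * conj N w c := rfl

theorem conj_add (N : ℕ) (v w : ℍ → ℂ) (c : Q N) : conj N (v + w) c = conj N v c + conj N w c := rfl

theorem conj_inv (N : ℕ) (v : ℍ → ℂ) (c : Q N) : conj N v⁻¹ c = (conj N v c)⁻¹ := rfl

theorem conj_one (N : ℕ) (c : Q N) : conj N 1 c = 1 := rfl

theorem conj_pow (N : ℕ) (v : ℍ → ℂ) (n : ℕ) (c : Q N) : conj N (v ^ n) c = conj N v c ^ n := rfl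

/-- A coset different from the base coset is represented by `g ∉ Γ₀(N)`. -/
theorem not_mem_of_ne_base {N : ℕ} {g : SL(2, ℤ)} (h : (g : Q N) ≠ Q.base N) : g ∉ Gamma0 N := by
  intro hg
  apply h
  rw [Q.base, QuotientGroup.eq]
  simpa using inv_mem hg

/-! ### Invariance of the symmetric expressions -/

section sym
variable {N : ℕ} [NeZero N]

/-- The characteristic polynomial `∏_c (X - conj u c)` over the ring of functions. -/
def charFn (N : ℕ) [NeZero N] (u : ℍ → ℂ) : (ℍ → ℂ)[X] := ∏ c : Q N, (X - C (conj N u c))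

/-- The Lagrange numerator `∑_c conj h c ∏_{c' ≠ c} (X - conj u c')`. -/
def lagrFn (N : ℕ) [NeZero N] (u h : ℍ → ℂ) : (ℍ → ℂ)[X] :=
  ∑ c : Q N, C (conj N h c) * ∏ c' ∈ Finset.univ.erase c, (X - C (conj N u c'))

theorem coeff_apply_eq (p : (ℍ → ℂ)[X]) (i : ℕ) (τ : ℍ) :
    p.coeff i τ = (p.map (Pi.evalRingHom (fun _ : ℍ => ℂ) τ)).coeff i := by
  rw [coeff_map]; rfl

theorem charFn_map (u : ℍ → ℂ) (τ : ℍ) :
    (charFn N u).map (Pi.evalRingHom (fun _ : ℍ => ℂ) τ) = ∏ c : Q N, (X - C (conj N u c τ)) := by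
  simp [charFn, Polynomial.map_prod]

theorem lagrFn_map (u h : ℍ → ℂ) (τ : ℍ) :
    (lagrFn N u h).map (Pi.evalRingHom (fun _ : ℍ => ℂ) τ) =
      ∑ c : Q N, C (conj N h c τ) * ∏ c' ∈ Finset.univ.erase c, (X - C (conj N u c' τ)) := by
  simp [lagrFn, Polynomial.map_prod, Polynomial.map_sum]

theorem charFn_coeff_inv {u : ℍ → ℂ} (hu : IsGamma0Inv N u) (i : ℕ) :
    IsSL2Inv ((charFn N u).coeff i) := by
  intro g τ
  rw [coeff_apply_eq, coeff_apply_eq, charFn_map, charFn_map]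
  congr 1
  simp only [conj_smul hu]
  exact Fintype.prod_equiv (MulAction.toPerm g⁻¹) _ _ (fun c => rfl)

theorem lagrFn_coeff_inv {u h : ℍ → ℂ} (hu : IsGamma0Inv N u) (hh : IsGamma0Inv N h) (i : ℕ) :
    IsSL2Inv ((lagrFn N u h).coeff i) := by
  intro g τ
  rw [coeff_apply_eq, coeff_apply_eq, lagrFn_map, lagrFn_map]
  congr 1
  simp only [conj_smul hu, conj_smul hh]
  refine Fintype.sum_equiv (MulAction.toPerm g⁻¹) _ _ (fun c => ?_)
  congr 1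
  refine Finset.prod_equiv (MulAction.toPerm g⁻¹) (fun c' => ?_) (fun c' _ => rfl)
  simp

theorem prod_conj_inv {u : ℍ → ℂ} (hu : IsGamma0Inv N u) : IsSL2Inv (∏ c : Q N, conj N u c) := by
  intro g τ
  simp only [Finset.prod_apply, conj_smul hu]
  exact Fintype.prod_equiv (MulAction.toPerm g⁻¹) _ _ (fun c => rfl)

end sym

/-! ### Transport to an abstract expansion ring -/

section transport
variable {N : ℕ} [NeZero N] (S : Subalgebra ℂ (ℍ → ℂ)) {A : Type*} [CommRing A] [Algebra ℂ A]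
  (L : S →ₐ[ℂ] A) (J : S)

theorem charFn_eq_map {u : ℍ → ℂ} (huS : ∀ c, conj N u c ∈ S) :
    charFn N u = (∏ c : Q N, (X - C (⟨conj N u c, huS c⟩ : S))).map S.val.toRingHom := by
  simp [charFn, Polynomial.map_prod]

theorem lagrFn_eq_map {u h : ℍ → ℂ} (huS : ∀ c, conj N u c ∈ S) (hhS : ∀ c, conj N h c ∈ S) :
    lagrFn N u h = (∑ c : Q N, C (⟨conj N h c, hhS c⟩ : S) *
      ∏ c' ∈ Finset.univ.erase c, (X - C (⟨conj N u c', huS c'⟩ : S))).map S.val.toRingHom := by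
  simp [lagrFn, Polynomial.map_prod, Polynomial.map_sum]

/-- `charpoly_coeff` of `IsRootFamily`, abstractly. -/
theorem charpoly_coeff_of
    (hpoly : ∀ f : S, IsSL2Inv (f : ℍ → ℂ) → ∃ P : ℂ[X], f = aeval J P)
    {u : ℍ → ℂ} (hu : IsGamma0Inv N u) (huS : ∀ c, conj N u c ∈ S) (i : ℕ) :
    ∃ P : ℂ[X], (∏ c : Q N, (X - C (L ⟨conj N u c, huS c⟩))).coeff i = aeval (L J) P := by
  set p : S[X] := ∏ c : Q N, (X - C (⟨conj N u c, huS c⟩ : S)) with hp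
  have h1 : ((p.coeff i : S) : ℍ → ℂ) = (charFn N u).coeff i := by
    rw [charFn_eq_map S huS, coeff_map]; rfl
  obtain ⟨P, hP⟩ := hpoly (p.coeff i) (by rw [h1]; exact charFn_coeff_inv hu i)
  refine ⟨P, ?_⟩
  have h2 : (∏ c : Q N, (X - C (L ⟨conj N u c, huS c⟩))) = p.map L.toRingHom := by
    simp [hp, Polynomial.map_prod]
  rw [h2, coeff_map, hP]
  exact (Polynomial.aeval_algHom_apply L J P).symm

/-- `lagrange_coeff` of `IsRootFamily`, abstractly. -/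
theorem lagrange_coeff_of
    (hpoly : ∀ f : S, IsSL2Inv (f : ℍ → ℂ) → ∃ P : ℂ[X], f = aeval J P)
    {u h : ℍ → ℂ} (hu : IsGamma0Inv N u) (hh : IsGamma0Inv N h)
    (huS : ∀ c, conj N u c ∈ S) (hhS : ∀ c, conj N h c ∈ S) (i : ℕ) :
    ∃ P : ℂ[X], (∑ c : Q N, C (L ⟨conj N h c, hhS c⟩) *
      ∏ c' ∈ Finset.univ.erase c, (X - C (L ⟨conj N u c', huS c'⟩))).coeff i = aeval (L J) P := by
  set p : S[X] := ∑ c : Q N, C (⟨conj N h c, hhS c⟩ : S) *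
      ∏ c' ∈ Finset.univ.erase c, (X - C (⟨conj N u c', huS c'⟩ : S)) with hp
  have h1 : ((p.coeff i : S) : ℍ → ℂ) = (lagrFn N u h).coeff i := by
    rw [lagrFn_eq_map S huS hhS, coeff_map]; rfl
  obtain ⟨P, hP⟩ := hpoly (p.coeff i) (by rw [h1]; exact lagrFn_coeff_inv hu hh i)
  refine ⟨P, ?_⟩
  have h2 : (∑ c : Q N, C (L ⟨conj N h c, hhS c⟩) *
      ∏ c' ∈ Finset.univ.erase c, (X - C (L ⟨conj N u c', huS c'⟩))) = p.map L.toRingHom := by
    simp [hp, Polynomial.map_prod, Polynomial.map_sum]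
  rw [h2, coeff_map, hP]
  exact (Polynomial.aeval_algHom_apply L J P).symm

/-- Products of conjugates, abstractly. -/
theorem prod_of
    (hpoly : ∀ f : S, IsSL2Inv (f : ℍ → ℂ) → ∃ P : ℂ[X], f = aeval J P)
    {u : ℍ → ℂ} (hu : IsGamma0Inv N u) (huS : ∀ c, conj N u c ∈ S) :
    ∃ P : ℂ[X], ∏ c : Q N, L ⟨conj N u c, huS c⟩ = aeval (L J) P := by
  obtain ⟨P, hP⟩ := hpoly (∏ c : Q N, (⟨conj N u c, huS c⟩ : S)) (by
    have : ((∏ c : Q N, (⟨conj N u c, huS c⟩ : S) : S) : ℍ → ℂ) = ∏ c : Q N, conj N u c := by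
      simp
    rw [this]; exact prod_conj_inv hu)
  refine ⟨P, ?_⟩
  rw [← map_prod, hP]
  exact (Polynomial.aeval_algHom_apply L J P).symm

end transport

/-- `prod_inv` of `IsRootFamily`, abstractly (`A` a field, `u` nowhere vanishing with `u⁻¹`'s
conjugates in `S`). -/
theorem prod_inv_of {N : ℕ} [NeZero N] (S : Subalgebra ℂ (ℍ → ℂ)) {A : Type*} [Field A]
    [Algebra ℂ A] (L : S →ₐ[ℂ] A) (J : S)
    (hpoly : ∀ f : S, IsSL2Inv (f : ℍ → ℂ) → ∃ P : ℂ[X], f = aeval J P)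
    {u : ℍ → ℂ} (hu : IsGamma0Inv N u) (hu0 : ∀ τ, u τ ≠ 0)
    (huS : ∀ c, conj N u c ∈ S) (huS' : ∀ c, conj N u⁻¹ c ∈ S) :
    ∃ P : ℂ[X], ∏ c : Q N, (L ⟨conj N u c, huS c⟩)⁻¹ = aeval (L J) P := by
  have hu' : IsGamma0Inv N u⁻¹ := fun γ hγ τ => by
    rw [Pi.inv_apply, Pi.inv_apply, hu γ hγ τ]
  obtain ⟨P, hP⟩ := prod_of S L J hpoly hu' huS'
  refine ⟨P, ?_⟩
  rw [← hP]
  refine Finset.prod_congr rfl (fun c _ => ?_)
  refine inv_eq_of_mul_eq_one_right ?_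
  rw [← map_mul, ← map_one L]
  congr 1
  ext τ
  simp [conj, hu0]

end Fermat.Agent.S28
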