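import Fermat.Agent.S28.Analytic.Translate
import Fermat.Agent.S24.Hermite

set_option autoImplicit false
noncomputable section
open UpperHalfPlane Function Complex ModularForm CongruenceSubgroup Polynomial ModularCurve
open scoped Manifold MatrixGroups
open Fermat.Agent.S24 Fermat.Agent.Common

namespace Fermat.Agent.S28

local notation "Δ" => ModularForm.discriminant

theorem E4_smul (γ : SL(2, ℤ)) (τ : ℍ) :
    E₄ (γ • τ) = denom γ τ ^ (4 : ℤ) * E₄ τ := by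
  have := SlashInvariantForm.slash_action_eqn'' E₄
    (show (γ : GL (Fin 2) ℝ) ∈ 𝒮ℒ from ⟨γ, rfl⟩) τ
  simpa using this

theorem isSLInvariant_Jfun : IsSLInvariant Jfun := by
  intro γ τ
  have hd : denom γ τ ≠ 0 := denom_ne_zero _ τ
  have hΔ : Δ τ ≠ 0 := discriminant_ne_zero τ
  rw [Jfun, Jfun, E4_smul, JPoly.discriminant_smul]
  have h1 : (denom γ τ ^ (4 : ℤ) * E₄ τ) ^ 3 = denom γ τ ^ (12 : ℤ) * E₄ τ ^ 3 := by
    rw [mul_pow, ← zpow_natCast (denom γ τ ^ (4 : ℤ)), ← zpow_mul]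
    norm_num
  rw [h1, mul_div_mul_left _ _ (zpow_ne_zero _ hd)]

theorem Jd_invariant (N d : ℕ) [NeZero d] (hd : d ∣ N) (γ : SL(2, ℤ)) (hγ : γ ∈ Gamma0 N) (τ : ℍ) :
    Jfun (heckeDiagMatrix d • (γ • τ)) = Jfun (heckeDiagMatrix d • τ) :=
  isSLInvariant_Jfun.comp_diag_smul hd hγ τ

theorem Jfun_comp_tri_mem_MF (N : ℕ) [NeZero N] (a e : ℕ) [NeZero a] [NeZero e] (b : ℤ)
    (h : e ∣ a * N) : (fun τ => Jfun (tri a e b τ)) ∈ MF N := by
  have h1 : (fun τ => Jfun (tri a e b τ)) =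
      ((E₄ : ℍ → ℂ) ∘ tri a e b) ^ 3 * (fun τ => (Δ (tri a e b τ))⁻¹) := by
    funext τ
    simp [Jfun, div_eq_mul_inv]
  rw [h1]
  exact mul_mem (pow_mem (HolPer_le_MF N (comp_tri_mem_HolPer N a e b E4_mem_HolPer_one h)) 3)
    (inv_discriminant_comp_tri_mem_MF N a e b h)

theorem Jd_comp_mem_MF (N d : ℕ) [NeZero N] [NeZero d] (hd : d ∣ N) (g : SL(2, ℤ)) :
    (fun τ => Jfun (heckeDiagMatrix d • (g • τ))) ∈ MF N := by
  obtain ⟨a, b, e, ha, he, hae, -, hh⟩ := isSLInvariant_Jfun.exists_hermite d g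
  lift a to ℕ using ha.le
  lift e to ℕ using he.le
  have ha' : a ≠ 0 := by rintro rfl; simp at ha
  have he' : e ≠ 0 := by rintro rfl; simp at he
  have : NeZero a := ⟨ha'⟩
  have : NeZero e := ⟨he'⟩
  have hae' : a * e = d := by exact_mod_cast hae
  have hne : (((a : ℤ) : ℝ)) * ((e : ℤ) : ℝ) ≠ 0 := by
    simp [ha', he']
  have h1 : (fun τ => Jfun (heckeDiagMatrix d • (g • τ))) = fun τ => Jfun (tri a e b τ) := by
    funext τ
    rw [hh hne τ]
    congr 2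
  rw [h1]
  apply Jfun_comp_tri_mem_MF
  exact Dvd.dvd.mul_left ((Dvd.intro_left a hae').trans hd) a

theorem heckeDiagMatrix_smul_eq_scal (d : ℕ) [NeZero d] (τ : ℍ) :
    heckeDiagMatrix d • τ = scal d τ := by
  apply UpperHalfPlane.ext
  have hpos : (0 : ℝ) < (d : ℝ) * 1 := by
    rw [mul_one]; exact_mod_cast Nat.pos_of_ne_zero (NeZero.ne d)
  have hD : heckeDiagMatrix d = upperTriangularGL d 0 1 hpos.ne' := by
    simp [heckeDiagMatrix, NeZero.ne d]
  rw [hD, coe_upperTriangularGL_smul hpos, coe_scal]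
  simp

theorem lau_Jd (N d : ℕ) [NeZero N] [NeZero d] (_hd : d ∣ N)
    (h : (fun τ => Jfun (heckeDiagMatrix d • τ)) ∈ MF N) :
    lau N ⟨_, h⟩ = qExpand ℂ N (qExpand ℂ d (jqModC ℂ)) := by
  have hE : (E₄ : ℍ → ℂ) ∘ scal d ∈ HolPer 1 :=
    ⟨mdiff_comp_scal d mdiff_E4, by simpa using periodic_comp_scal d periodic_E4,
      isBoundedAtImInfty_comp_scal d isBoundedAtImInfty_E4⟩
  have hD : (Δ : ℍ → ℂ) ∘ scal d ∈ HolPer 1 :=
    ⟨mdiff_comp_scal d mdiff_discriminant, by simpa using periodic_comp_scal d periodic_discriminant,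
      isBoundedAtImInfty_comp_scal d isBoundedAtImInfty_discriminant⟩
  have hmul : (⟨_, h⟩ : MF N) * ⟨_, HolPer_le_MF N (HolPer_one_le N hD)⟩
      = ⟨_, HolPer_le_MF N (HolPer_one_le N hE)⟩ ^ 3 := by
    apply Subtype.ext
    funext τ
    have hΔ : Δ (scal d τ) ≠ 0 := discriminant_ne_zero _
    simp only [MulMemClass.coe_mul, SubmonoidClass.coe_pow, Pi.mul_apply, Pi.pow_apply,
      Function.comp_apply, heckeDiagMatrix_smul_eq_scal, Jfun]
    field_simp
  have h2 := congrArg (lau N) hmul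
  rw [map_mul, map_pow, lau_of_mem_HolPer_one N hD, lau_of_mem_HolPer_one N hE, ← map_pow,
    ofPowerSeries_qExpansion_E4_scal_pow, map_mul] at h2
  have hne : qExpand ℂ N (HahnSeries.ofPowerSeries ℤ ℂ (qExpansion 1 ((Δ : ℍ → ℂ) ∘ scal d))) ≠ 0 := by
    rw [Ne, map_eq_zero_iff _ (qExpand_injective (R := ℂ) N)]
    exact ofPowerSeries_qExpansion_discriminant_scal_ne_zero d
  exact mul_right_cancel₀ hne h2

end Fermat.Agent.S28
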