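import Fermat.Agent.S28.Analytic.Translate
import Fermat.Agent.Common.JPoly
import Fermat.Agent.S24.Hermite

set_option autoImplicit false
noncomputable section
open UpperHalfPlane Function Complex ModularForm CongruenceSubgroup Polynomial ModularCurve
open scoped Manifold MatrixGroups
open Fermat.Agent.S24 Fermat.Agent.Common

namespace Fermat.Agent.S28

local notation "Δ" => ModularForm.discriminant

namespace Unit
open Matrix.SpecialLinearGroup
set_option linter.unusedSectionVars false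

theorem σ_mapGL (g : SL(2, ℤ)) : UpperHalfPlane.σ (mapGL ℝ g) = .refl ℝ ℂ := by
  rw [UpperHalfPlane.σ, if_pos (by simp)]

/-- General transformation rule for `Δ` along a matrix identity `A g = g' B`. -/
theorem discriminant_smul_of_mul_eq (A B : GL (Fin 2) ℝ) (hB : 0 < B.det.val) (g g' : SL(2, ℤ))
    (h : A * mapGL ℝ g = mapGL ℝ g' * B) (α β : ℂ) (hA : ∀ τ : ℍ, denom A τ = α)
    (hBd : ∀ τ : ℍ, denom B τ = β) (τ : ℍ) :
    Δ (A • (g • τ)) * β ^ 12 = (denom g τ) ^ 12 * α ^ 12 * Δ (B • τ) := by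
  have h1 : A • (g • τ) = g' • (B • τ) := by
    rw [smul_eq_mapGL_smul, smul_eq_mapGL_smul, ← mul_smul, ← mul_smul, h]
  have h2 := denom_cocycle_σ A (mapGL ℝ g) τ
  have h3 := denom_cocycle_σ (mapGL ℝ g') B τ
  have hσB : UpperHalfPlane.σ B = .refl ℝ ℂ := by rw [UpperHalfPlane.σ, if_pos hB]
  rw [σ_mapGL, hA] at h2
  rw [hσB, hBd, ← h, h2] at h3
  simp only [ContinuousAlgEquiv.refl_apply] at h3
  rw [h1, JPoly.discriminant_smul]
  have h4 : denom g' ((B • τ : ℍ) : ℂ) * β = α * denom g τ := h3.symm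
  have h5 : (denom g' ((B • τ : ℍ) : ℂ)) ^ (12 : ℤ) = (denom g' ((B • τ : ℍ) : ℂ)) ^ 12 := by norm_cast
  rw [h5]
  calc _ = (denom g' ((B • τ : ℍ) : ℂ) * β) ^ 12 * Δ (B • τ) := by ring
    _ = _ := by rw [h4]; ring

theorem denom_upperTriangularGL (a b e : ℝ) (h : a * e ≠ 0) (τ : ℍ) :
    denom (upperTriangularGL a b e h) τ = e := by
  simp [UpperHalfPlane.denom]

theorem exists_tri (d : ℕ) [NeZero d] (g : SL(2, ℤ)) :
    ∃ (a e : ℕ) (_ : NeZero a) (_ : NeZero e) (b : ℤ), a * e = d ∧ a = Int.gcd d (g 1 0) ∧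
      ∀ τ : ℍ, Δ (heckeDiagMatrix d • (g • τ)) / Δ (g • τ) =
        ((e : ℂ)⁻¹) ^ 12 * Δ (tri a e b τ) / Δ τ := by
  obtain ⟨γ', a, b, e, ha, he, hae, hag, h⟩ := hermite d g
  lift a to ℕ using ha.le
  lift e to ℕ using he.le
  have ha' : a ≠ 0 := by rintro rfl; simp at ha
  have he' : e ≠ 0 := by rintro rfl; simp at he
  have : NeZero a := ⟨ha'⟩
  have : NeZero e := ⟨he'⟩
  refine ⟨a, e, inferInstance, inferInstance, b, by exact_mod_cast hae, by exact_mod_cast hag,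
    fun τ => ?_⟩
  have hne : ((a : ℝ)) * (e : ℝ) ≠ 0 := mul_ne_zero (by exact_mod_cast ha') (by exact_mod_cast he')
  simp only [Int.cast_natCast] at h
  have hpos : 0 < (upperTriangularGL (a : ℝ) b e hne).det.val := by
    rw [det_upperTriangularGL]
    have h1 : (0 : ℝ) < a := by exact_mod_cast Nat.pos_of_ne_zero ha'
    have h2 : (0 : ℝ) < e := by exact_mod_cast Nat.pos_of_ne_zero he'
    exact mul_pos h1 h2
  have key := discriminant_smul_of_mul_eq (heckeDiagMatrix d) (upperTriangularGL (a : ℝ) b e hne)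
    hpos g γ' (h hne) 1 (e : ℂ) (fun τ => denom_heckeDiagMatrix (NeZero.ne d) τ)
    (fun τ => by rw [denom_upperTriangularGL]; simp) τ
  have hΔ := JPoly.discriminant_smul g τ
  have h5 : (denom g τ) ^ (12 : ℤ) = (denom g τ) ^ 12 := by norm_cast
  rw [h5] at hΔ
  have hd : denom g τ ≠ 0 := denom_ne_zero _ τ
  have heC : (e : ℂ) ≠ 0 := by exact_mod_cast he'
  have hΔ0 : Δ τ ≠ 0 := discriminant_ne_zero τ
  rw [hΔ]
  have key' : Δ (heckeDiagMatrix d • (g • τ)) = (denom g τ) ^ 12 * ((e : ℂ)⁻¹) ^ 12 *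
      Δ (tri a e b τ) := by
    have : Δ (tri a e b τ) = Δ (upperTriangularGL (a : ℝ) b e hne • τ) := rfl
    rw [this]
    field_simp
    rw [key]; ring
  rw [key']
  field_simp

theorem quot_invariant (d N : ℕ) [NeZero d] (hd : d ∣ N) (γ : SL(2, ℤ)) (hγ : γ ∈ Gamma0 N)
    (τ : ℍ) :
    Δ (heckeDiagMatrix d • (γ • τ)) / Δ (γ • τ) = Δ (heckeDiagMatrix d • τ) / Δ τ := by
  obtain ⟨γ', h⟩ := heckeDiag_mul_Gamma0 d γ (Gamma0_le_of_dvd hd hγ)
  have key := discriminant_smul_of_mul_eq (heckeDiagMatrix d) (heckeDiagMatrix d)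
    (det_heckeDiagMatrix_pos d) γ γ' h 1 1 (fun τ => denom_heckeDiagMatrix (NeZero.ne d) τ)
    (fun τ => denom_heckeDiagMatrix (NeZero.ne d) τ) τ
  have hΔ := JPoly.discriminant_smul γ τ
  have h5 : (denom γ τ) ^ (12 : ℤ) = (denom γ τ) ^ 12 := by norm_cast
  rw [h5] at hΔ
  have hd : denom γ τ ≠ 0 := denom_ne_zero _ τ
  have hΔ0 : Δ τ ≠ 0 := discriminant_ne_zero τ
  simp only [one_pow, mul_one] at key
  rw [hΔ, key]
  field_simp

/-! ### Units of `MF N` -/

section units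
variable (N : ℕ) [NeZero N]

/-- Nowhere vanishing functions in `MF N` whose inverse is in `MF N`. -/
structure IsU (f : ℍ → ℂ) : Prop where
  ne : ∀ τ, f τ ≠ 0
  mem : f ∈ MF N
  inv_mem : f⁻¹ ∈ MF N

open Classical in
/-- Total version of `lau`. -/
def L (f : ℍ → ℂ) : LaurentSeries ℂ := if h : f ∈ MF N then lau N ⟨f, h⟩ else 0

variable {N}

theorem L_eq {f : ℍ → ℂ} (h : f ∈ MF N) : L N f = lau N ⟨f, h⟩ := dif_pos h

theorem L_one : L N 1 = 1 := by
  rw [L_eq (one_mem _)]; exact map_one (lau N)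

theorem L_mul {f g : ℍ → ℂ} (hf : f ∈ MF N) (hg : g ∈ MF N) : L N (f * g) = L N f * L N g := by
  rw [L_eq hf, L_eq hg, L_eq (mul_mem hf hg), ← map_mul]; rfl

theorem IsU.one : IsU N 1 := ⟨fun _ => one_ne_zero, one_mem _, by rw [inv_one]; exact one_mem _⟩

theorem IsU.mul {f g : ℍ → ℂ} (hf : IsU N f) (hg : IsU N g) : IsU N (f * g) :=
  ⟨fun τ => mul_ne_zero (hf.ne τ) (hg.ne τ), mul_mem hf.mem hg.mem, by
    rw [mul_inv]; exact mul_mem hf.inv_mem hg.inv_mem⟩

theorem IsU.inv {f : ℍ → ℂ} (hf : IsU N f) : IsU N f⁻¹ :=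
  ⟨fun τ => inv_ne_zero (hf.ne τ), hf.inv_mem, by rw [inv_inv]; exact hf.mem⟩

theorem IsU.mul_inv_cancel {f : ℍ → ℂ} (hf : IsU N f) : f * f⁻¹ = 1 := by
  funext τ; exact mul_inv_cancel₀ (hf.ne τ)

theorem IsU.L_inv {f : ℍ → ℂ} (hf : IsU N f) : L N f⁻¹ = (L N f)⁻¹ := by
  have h := L_mul hf.mem hf.inv_mem
  rw [hf.mul_inv_cancel, L_one] at h
  exact eq_inv_of_mul_eq_one_right h.symm

theorem IsU.L_ne_zero {f : ℍ → ℂ} (hf : IsU N f) : L N f ≠ 0 := by
  have h := L_mul hf.mem hf.inv_mem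
  rw [hf.mul_inv_cancel, L_one] at h
  intro h0
  rw [h0, zero_mul] at h
  exact one_ne_zero h

theorem IsU.pow {f : ℍ → ℂ} (hf : IsU N f) (n : ℕ) : IsU N (f ^ n) ∧ L N (f ^ n) = L N f ^ n := by
  induction n with
  | zero => exact ⟨by rw [pow_zero]; exact IsU.one, by rw [pow_zero, pow_zero, L_one]⟩
  | succ n ih =>
    exact ⟨by rw [pow_succ]; exact ih.1.mul hf, by
      rw [pow_succ, pow_succ, L_mul ih.1.mem hf.mem, ih.2]⟩

theorem IsU.zpow {f : ℍ → ℂ} (hf : IsU N f) (r : ℤ) :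
    IsU N (f ^ r) ∧ L N (f ^ r) = L N f ^ r := by
  cases r with
  | ofNat n =>
    simp only [Int.ofNat_eq_natCast, zpow_natCast]
    exact hf.pow n
  | negSucc n =>
    simp only [zpow_negSucc]
    exact ⟨(hf.pow (n + 1)).1.inv, by rw [(hf.pow (n + 1)).1.L_inv, (hf.pow (n + 1)).2]⟩

theorem IsU.prod {ι : Type*} (s : Finset ι) (f : ι → ℍ → ℂ) (hf : ∀ i ∈ s, IsU N (f i)) :
    IsU N (∏ i ∈ s, f i) ∧ L N (∏ i ∈ s, f i) = ∏ i ∈ s, L N (f i) := by
  classical
  induction s using Finset.induction_on with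
  | empty => exact ⟨by rw [Finset.prod_empty]; exact IsU.one, by simp [L_one]⟩
  | insert a s ha ih =>
    have h1 := ih fun i hi => hf i (Finset.mem_insert_of_mem hi)
    have h2 := hf a (Finset.mem_insert_self a s)
    rw [Finset.prod_insert ha, Finset.prod_insert ha]
    exact ⟨h2.mul h1.1, by rw [L_mul h2.mem h1.1.mem, h1.2]⟩

theorem isU_const {c : ℂ} (hc : c ≠ 0) : IsU N (fun _ => c) :=
  ⟨fun _ => hc, (MF N).algebraMap_mem c, (MF N).algebraMap_mem c⁻¹⟩

theorem L_const (c : ℂ) : L N (fun _ => c) = HahnSeries.C c := by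
  have h : (fun _ : ℍ => c) ∈ MF N := (MF N).algebraMap_mem c
  rw [L_eq h]
  exact lau_algebraMap N c

theorem isU_discriminant : IsU N Δ := by
  refine ⟨discriminant_ne_zero, HolPer_le_MF N (discriminant_mem_HolPer N), 1, ?_⟩
  have : (Δ : ℍ → ℂ)⁻¹ * Δ ^ 1 = 1 := by
    funext τ
    simp [discriminant_ne_zero τ]
  rw [this]; exact one_mem _

theorem isU_discriminant_tri (a e : ℕ) [NeZero a] [NeZero e] (b : ℤ) (h : e ∣ a * N) :
    IsU N (Δ ∘ tri a e b) :=
  ⟨fun _ => discriminant_ne_zero _,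
    HolPer_le_MF N (comp_tri_mem_HolPer N a e b (discriminant_mem_HolPer 1) h),
    inv_discriminant_comp_tri_mem_MF N a e b h⟩

theorem tri_one_one_zero (τ : ℍ) : tri 1 1 0 τ = τ := by
  apply UpperHalfPlane.ext
  have h := coe_upperTriangularGL_smul (a := ((1 : ℕ) : ℝ)) (b := ((0 : ℤ) : ℝ))
    (e := ((1 : ℕ) : ℝ)) (by norm_num) τ
  have h2 : ((tri 1 1 0 τ : ℍ) : ℂ) = _ := h
  rw [h2]; simp

theorem discriminant_comp_tri_one : (Δ ∘ tri 1 1 0 : ℍ → ℂ) = Δ := by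
  funext τ; simp [tri_one_one_zero]

theorem isNUnit_L_tri (a e : ℕ) [NeZero a] [NeZero e] (b : ℤ) (h : e ∣ a * N) (he : e ∣ N) :
    IsNUnit N (L N (Δ ∘ tri a e b)) := by
  rw [L_eq (isU_discriminant_tri a e b h).mem]
  exact isNUnit_lau_discriminant_comp_tri N a e b h he

theorem order_L_tri (a e : ℕ) [NeZero a] [NeZero e] (b : ℤ) (h : e ∣ a * N) :
    (L N (Δ ∘ tri a e b)).order = ((a * N / e : ℕ) : ℤ) := by
  rw [L_eq (isU_discriminant_tri a e b h).mem]
  exact order_lau_discriminant_comp_tri N a e b h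

theorem isNUnit_L_discriminant : IsNUnit N (L N Δ) := by
  have := isNUnit_L_tri (N := N) 1 1 0 (one_dvd _) (one_dvd _)
  rwa [discriminant_comp_tri_one] at this

theorem order_L_discriminant : (L N Δ).order = (N : ℤ) := by
  have := order_L_tri (N := N) 1 1 0 (one_dvd _)
  rw [discriminant_comp_tri_one] at this
  simpa using this

end units

/-! ### Laurent series lemmas -/

section laurent

theorem order_inv' {x : LaurentSeries ℂ} (hx : x ≠ 0) : (x⁻¹).order = - x.order := by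
  have h := HahnSeries.order_mul hx (inv_ne_zero hx)
  rw [mul_inv_cancel₀ hx, HahnSeries.order_one] at h
  linarith

theorem order_zpow' {x : LaurentSeries ℂ} (hx : x ≠ 0) (r : ℤ) : (x ^ r).order = r * x.order := by
  cases r with
  | ofNat n =>
    simp only [Int.ofNat_eq_natCast, zpow_natCast, HahnSeries.order_pow, nsmul_eq_mul]
  | negSucc n =>
    rw [zpow_negSucc, order_inv' (pow_ne_zero _ hx), HahnSeries.order_pow, Int.negSucc_eq]
    simp only [nsmul_eq_mul]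
    push_cast; ring

theorem order_prod_zpow {ι : Type*} (s : Finset ι) (x : ι → LaurentSeries ℂ) (r : ι → ℤ)
    (hx : ∀ i ∈ s, x i ≠ 0) :
    (∏ i ∈ s, x i ^ r i).order = ∑ i ∈ s, r i * (x i).order := by
  classical
  induction s using Finset.induction_on with
  | empty => simp
  | insert a s ha ih =>
    have h1 := ih fun i hi => hx i (Finset.mem_insert_of_mem hi)
    have h2 := hx a (Finset.mem_insert_self a s)
    rw [Finset.prod_insert ha, Finset.sum_insert ha, HahnSeries.order_mul (zpow_ne_zero _ h2)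
      (Finset.prod_ne_zero_iff.2 fun i hi => zpow_ne_zero _ (hx i (Finset.mem_insert_of_mem hi))),
      h1, order_zpow' h2]

theorem isNUnit_one (N : ℕ) [NeZero N] : IsNUnit N 1 := by
  have := isNUnit_C_natCast N (one_dvd N)
  simpa using this

theorem isNUnit_prod_zpow (N : ℕ) [NeZero N] {ι : Type*} (s : Finset ι)
    (x : ι → LaurentSeries ℂ) (r : ι → ℤ) (hx : ∀ i ∈ s, IsNUnit N (x i)) :
    IsNUnit N (∏ i ∈ s, x i ^ r i) := by
  classical
  induction s using Finset.induction_on with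
  | empty => simpa using isNUnit_one N
  | insert a s ha ih =>
    rw [Finset.prod_insert ha]
    exact IsNUnit.mul N (IsNUnit.zpow N (hx a (Finset.mem_insert_self a s)) _)
      (ih fun i hi => hx i (Finset.mem_insert_of_mem hi))

end laurent

/-! ### Arithmetic -/

/-- Jordan's totient `J₂`. -/
def jordan2 (n : ℕ) : ℤ := ∑ x ∈ n.divisorsAntidiagonal, (ArithmeticFunction.moebius x.1 : ℤ) * (x.2 : ℤ) ^ 2

theorem sum_jordan2 (n : ℕ) (hn : 0 < n) : ∑ i ∈ n.divisors, jordan2 i = (n : ℤ) ^ 2 :=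
  (ArithmeticFunction.sum_eq_iff_sum_mul_moebius_eq (R := ℤ) (f := jordan2) (g := fun n => (n : ℤ) ^ 2)).2
    (fun _ _ => rfl) n hn

theorem sum_moebius_gcd_sq (N : ℕ) (hN : 0 < N) (c : ℤ) (h : ¬ (N : ℤ) ∣ c) :
    ∑ d ∈ N.divisors, (ArithmeticFunction.moebius (N / d) : ℤ) * ((Int.gcd d c : ℕ) : ℤ) ^ 2 = 0 := by
  have key := (ArithmeticFunction.sum_eq_iff_sum_mul_moebius_eq (R := ℤ)
    (f := fun e => if (e : ℤ) ∣ c then jordan2 e else 0)
    (g := fun n => ((Int.gcd n c : ℕ) : ℤ) ^ 2)).1 ?_ N hN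
  · simp only [Int.cast_id] at key
    rw [if_neg h, Nat.sum_divisorsAntidiagonal'
      (f := fun x y => (ArithmeticFunction.moebius x : ℤ) * ((Int.gcd y c : ℕ) : ℤ) ^ 2)] at key
    exact key
  · intro n hn
    have hg : 0 < Int.gcd n c := Int.gcd_pos_of_ne_zero_left _ (by exact_mod_cast hn.ne')
    rw [← sum_jordan2 _ hg, ← Finset.sum_filter]
    refine Finset.sum_congr ?_ fun _ _ => rfl
    ext e
    simp only [Finset.mem_filter, Nat.mem_divisors]
    constructor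
    · rintro ⟨⟨h1, -⟩, h2⟩
      refine ⟨?_, hg.ne'⟩
      have : (e : ℤ) ∣ ((Int.gcd n c : ℕ) : ℤ) := Int.dvd_coe_gcd (by exact_mod_cast h1) h2
      exact_mod_cast this
    · rintro ⟨h1, -⟩
      have h2 : (e : ℤ) ∣ ((Int.gcd n c : ℕ) : ℤ) := by exact_mod_cast h1
      refine ⟨⟨?_, hn.ne'⟩, h2.trans (Int.gcd_dvd_right _ _)⟩
      have := h2.trans (Int.gcd_dvd_left (n : ℤ) c)
      exact_mod_cast this

theorem sum_moebius_mul_self (N : ℕ) (hN : 0 < N) :
    ∑ d ∈ N.divisors, (ArithmeticFunction.moebius (N / d) : ℤ) * (d : ℤ) = (Nat.totient N : ℤ) := by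
  have key := (ArithmeticFunction.sum_eq_iff_sum_mul_moebius_eq (R := ℤ)
    (f := fun e => (Nat.totient e : ℤ)) (g := fun n => (n : ℤ))).1 ?_ N hN
  · simp only [Int.cast_id] at key
    rw [Nat.sum_divisorsAntidiagonal' (f := fun x y => (ArithmeticFunction.moebius x : ℤ) * (y : ℤ))] at key
    exact key
  · intro n _
    have := Nat.sum_totient n
    exact_mod_cast this


/-! ### The unit -/

/-- The exponents. -/
def rexp (N d : ℕ) : ℤ := (d : ℤ) * ArithmeticFunction.moebius (N / d)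

/-- `Δ(dτ)/Δ(τ)`. -/
def W (d : ℕ) (τ : ℍ) : ℂ := Δ (heckeDiagMatrix d • τ) / Δ τ

/-- The modular unit. -/
def vfun (N : ℕ) : ℍ → ℂ := ∏ d ∈ N.divisors, (W d) ^ rexp N d

theorem vfun_comp (N : ℕ) (g : SL(2, ℤ)) :
    (fun τ => vfun N (g • τ)) = ∏ d ∈ N.divisors, (fun τ => W d (g • τ)) ^ rexp N d := by
  funext τ
  simp [vfun, Finset.prod_apply]

theorem vfun_invariant (N : ℕ) (γ : SL(2, ℤ)) (hγ : γ ∈ Gamma0 N) (τ : ℍ) :
    vfun N (γ • τ) = vfun N τ := by
  simp only [vfun, Finset.prod_apply, Pi.pow_apply]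
  refine Finset.prod_congr rfl fun d hd => ?_
  have : NeZero d := ⟨(Nat.pos_of_mem_divisors hd).ne'⟩
  rw [W, W, quot_invariant d N (Nat.dvd_of_mem_divisors hd) γ hγ]

theorem W_comp_props (N : ℕ) [NeZero N] (d : ℕ) (hd : d ∈ N.divisors) (g : SL(2, ℤ)) :
    IsU N (fun τ => W d (g • τ)) ∧ IsNUnit N (L N (fun τ => W d (g • τ))) ∧
      (d : ℤ) * (L N (fun τ => W d (g • τ))).order =
        (N : ℤ) * (((Int.gcd d (g 1 0) : ℕ) : ℤ) ^ 2 - d) := by
  have : NeZero d := ⟨(Nat.pos_of_mem_divisors hd).ne'⟩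
  obtain ⟨a, e, _, _, b, hae, hag, h⟩ := exists_tri d g
  have hdN : d ∣ N := Nat.dvd_of_mem_divisors hd
  have heN : e ∣ N := (Dvd.intro_left a hae).trans hdN
  have heaN : e ∣ a * N := heN.mul_left a
  have heC : (e : ℂ) ≠ 0 := by exact_mod_cast NeZero.ne e
  have hW : (fun τ => W d (g • τ)) = (fun _ => ((e : ℂ)⁻¹) ^ 12) * (Δ ∘ tri a e b) * Δ⁻¹ := by
    funext τ
    simp only [W, Pi.mul_apply, Pi.inv_apply, Function.comp_apply]
    rw [h τ, div_eq_mul_inv]
  have u1 : IsU N (fun _ : ℍ => ((e : ℂ)⁻¹) ^ 12) := isU_const (pow_ne_zero _ (inv_ne_zero heC))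
  have u2 := isU_discriminant_tri (N := N) a e b heaN
  have u3 := (isU_discriminant (N := N)).inv
  have hL : L N (fun τ => W d (g • τ)) =
      HahnSeries.C (((e : ℂ)⁻¹) ^ 12) * L N (Δ ∘ tri a e b) * (L N Δ)⁻¹ := by
    rw [hW, L_mul (u1.mul u2).mem u3.mem, L_mul u1.mem u2.mem, L_const, isU_discriminant.L_inv]
  have n1 : IsNUnit N (HahnSeries.C (((e : ℂ)⁻¹) ^ 12) : LaurentSeries ℂ) := by
    have h1 := IsNUnit.zpow N (IsNUnit.inv N (isNUnit_C_natCast N heN)) 12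
    have h2 : ((HahnSeries.C (e : ℂ) : LaurentSeries ℂ)⁻¹) ^ (12 : ℤ) =
        HahnSeries.C (((e : ℂ)⁻¹) ^ 12) := by
      rw [map_pow, map_inv₀]; norm_cast
    rwa [h2] at h1
  refine ⟨hW ▸ (u1.mul u2).mul u3, ?_, ?_⟩
  · rw [hL]
    exact IsNUnit.mul N (IsNUnit.mul N n1 (isNUnit_L_tri a e b heaN heN))
      (IsNUnit.inv N isNUnit_L_discriminant)
  · rw [hL, HahnSeries.order_mul (mul_ne_zero n1.1 u2.L_ne_zero)
      (inv_ne_zero isU_discriminant.L_ne_zero), HahnSeries.order_mul n1.1 u2.L_ne_zero,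
      HahnSeries.order_C, order_L_tri a e b heaN, order_inv' isU_discriminant.L_ne_zero,
      order_L_discriminant, ← hag]
    obtain ⟨m, rfl⟩ := heN
    have h1 : a * (e * m) / e = a * m := by
      rw [show a * (e * m) = e * (a * m) by ring]
      exact Nat.mul_div_cancel_left _ (Nat.pos_of_ne_zero (NeZero.ne e))
    rw [h1, ← hae]
    push_cast; ring

theorem vfun_comp_props (N : ℕ) [NeZero N] (g : SL(2, ℤ)) :
    IsU N (fun τ => vfun N (g • τ)) ∧ IsNUnit N (L N (fun τ => vfun N (g • τ))) ∧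
      (g ∉ Gamma0 N → (L N (fun τ => vfun N (g • τ))).order < 0) := by
  have hU : ∀ d ∈ N.divisors, IsU N ((fun τ => W d (g • τ)) ^ rexp N d) := fun d hd =>
    ((W_comp_props N d hd g).1.zpow _).1
  have hL : L N (fun τ => vfun N (g • τ)) =
      ∏ d ∈ N.divisors, (L N (fun τ => W d (g • τ))) ^ rexp N d := by
    rw [vfun_comp, (IsU.prod _ _ hU).2]
    exact Finset.prod_congr rfl fun d hd => ((W_comp_props N d hd g).1.zpow _).2
  refine ⟨by rw [vfun_comp]; exact (IsU.prod _ _ hU).1, ?_, fun hg => ?_⟩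
  · rw [hL]
    exact isNUnit_prod_zpow N _ _ _ fun d hd => (W_comp_props N d hd g).2.1
  · rw [hL, order_prod_zpow _ _ _ fun d hd => (W_comp_props N d hd g).1.L_ne_zero]
    have hN : 0 < N := Nat.pos_of_ne_zero (NeZero.ne N)
    have hc : ¬ (N : ℤ) ∣ g 1 0 := by
      intro h
      exact hg (Gamma0_mem.mpr ((ZMod.intCast_zmod_eq_zero_iff_dvd _ _).mpr h))
    have h1 : ∑ d ∈ N.divisors, rexp N d * (L N (fun τ => W d (g • τ))).order =
        (N : ℤ) * (∑ d ∈ N.divisors, (ArithmeticFunction.moebius (N / d) : ℤ) *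
          ((Int.gcd d (g 1 0) : ℕ) : ℤ) ^ 2 -
          ∑ d ∈ N.divisors, (ArithmeticFunction.moebius (N / d) : ℤ) * (d : ℤ)) := by
      rw [← Finset.sum_sub_distrib, Finset.mul_sum]
      refine Finset.sum_congr rfl fun d hd => ?_
      have := (W_comp_props N d hd g).2.2
      rw [rexp]
      linear_combination (ArithmeticFunction.moebius (N / d) : ℤ) * this
    rw [h1, sum_moebius_gcd_sq N hN _ hc, sum_moebius_mul_self N hN]
    have h2 : (0 : ℤ) < Nat.totient N := by exact_mod_cast Nat.totient_pos.2 hN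
    have h3 : (0 : ℤ) < N := by exact_mod_cast hN
    nlinarith

/-! ### The formal expansion -/

section formal

/-- The formal `Δ`. -/
def δ : LaurentSeries ℤ := HahnSeries.ofPowerSeries ℤ ℤ (PowerSeries.X * dedekindEtaUnit)

/-- Its inverse. -/
def δinv : LaurentSeries ℤ :=
  HahnSeries.single (-1 : ℤ) 1 * HahnSeries.ofPowerSeries ℤ ℤ dedekindEtaUnitInv

theorem δ_mul_δinv : δ * δinv = 1 := by
  rw [δ, δinv, map_mul, HahnSeries.ofPowerSeries_X]
  have h1 : HahnSeries.ofPowerSeries ℤ ℤ dedekindEtaUnit *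
      HahnSeries.ofPowerSeries ℤ ℤ dedekindEtaUnitInv = 1 := by
    rw [← map_mul, dedekindEtaUnit_mul_inv, map_one]
  have h2 : (HahnSeries.single (1 : ℤ) (1 : ℤ)) * HahnSeries.single (-1 : ℤ) (1 : ℤ) = 1 := by
    rw [HahnSeries.single_mul_single]
    simp
  calc _ = ((HahnSeries.single (1 : ℤ) (1 : ℤ)) * HahnSeries.single (-1 : ℤ) (1 : ℤ)) *
        (HahnSeries.ofPowerSeries ℤ ℤ dedekindEtaUnit *
          HahnSeries.ofPowerSeries ℤ ℤ dedekindEtaUnitInv) := by ring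
    _ = 1 := by rw [h1, h2, one_mul]

theorem castLS_δ :
    castLS ℂ δ = HahnSeries.ofPowerSeries ℤ ℂ (qExpansion 1 ModularForm.discriminant) := by
  rw [qExpansion_discriminant, castLS, δ, coeffMap_ofPowerSeries, map_mul, PowerSeries.map_X]

variable (N : ℕ) [NeZero N]

/-- Laurent series in `t` coming from a unit of `ℤ((q))`. -/
def IsFormal (x : LaurentSeries ℂ) : Prop :=
  ∃ w w' : LaurentSeries ℤ, w * w' = 1 ∧ x = qExpand ℂ N (castLS ℂ w)

variable {N}

theorem IsFormal.one : IsFormal N 1 := ⟨1, 1, one_mul 1, by simp [castLS]⟩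

theorem IsFormal.mul {x y : LaurentSeries ℂ} (hx : IsFormal N x) (hy : IsFormal N y) :
    IsFormal N (x * y) := by
  obtain ⟨w, w', h, rfl⟩ := hx
  obtain ⟨z, z', h', rfl⟩ := hy
  exact ⟨w * z, w' * z', by rw [mul_mul_mul_comm, h, h', one_mul], by simp [castLS]⟩

theorem IsFormal.inv {x : LaurentSeries ℂ} (hx : IsFormal N x) : IsFormal N x⁻¹ := by
  obtain ⟨w, w', h, rfl⟩ := hx
  refine ⟨w', w, by rw [mul_comm, h], ?_⟩
  have h1 : qExpand ℂ N (castLS ℂ w) * qExpand ℂ N (castLS ℂ w') = 1 := by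
    rw [castLS, castLS, ← map_mul, ← map_mul, h, map_one, map_one]
  exact inv_eq_of_mul_eq_one_right h1

theorem IsFormal.zpow {x : LaurentSeries ℂ} (hx : IsFormal N x) (r : ℤ) : IsFormal N (x ^ r) := by
  have hp : ∀ n : ℕ, IsFormal N (x ^ n) := by
    intro n
    induction n with
    | zero => rw [pow_zero]; exact IsFormal.one
    | succ n ih => rw [pow_succ]; exact ih.mul hx
  cases r with
  | ofNat n => simpa using hp n
  | negSucc n => rw [zpow_negSucc]; exact (hp _).inv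

theorem IsFormal.prod_zpow {ι : Type*} (s : Finset ι)
    (x : ι → LaurentSeries ℂ) (r : ι → ℤ) (hx : ∀ i ∈ s, IsFormal N (x i)) :
    IsFormal N (∏ i ∈ s, x i ^ r i) := by
  classical
  induction s using Finset.induction_on with
  | empty => simpa using IsFormal.one
  | insert a s ha ih =>
    rw [Finset.prod_insert ha]
    exact ((hx a (Finset.mem_insert_self a s)).zpow _).mul
      (ih fun i hi => hx i (Finset.mem_insert_of_mem hi))

theorem coe_tri_one_zero (d : ℕ) [NeZero d] (τ : ℍ) : ((tri d 1 0 τ : ℍ) : ℂ) = (d : ℂ) * τ := by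
  have hpos : (0 : ℝ) < (d : ℝ) * ((1 : ℕ) : ℝ) := by
    have : (0 : ℝ) < d := by exact_mod_cast Nat.pos_of_ne_zero (NeZero.ne d)
    simpa using this
  have h := coe_upperTriangularGL_smul (a := (d : ℝ)) (b := ((0 : ℤ) : ℝ))
    (e := ((1 : ℕ) : ℝ)) hpos τ
  have h2 : ((tri d 1 0 τ : ℍ) : ℂ) = _ := h
  rw [h2]; simp

theorem tri_eq_heckeDiag (d : ℕ) [NeZero d] (τ : ℍ) : tri d 1 0 τ = heckeDiagMatrix d • τ := by
  apply UpperHalfPlane.ext
  rw [coe_tri_one_zero, coe_heckeDiagMatrix_smul (NeZero.ne d)]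

theorem isFormal_L_tri (d : ℕ) [NeZero d] : IsFormal N (L N (Δ ∘ tri d 1 0)) := by
  refine ⟨qExpand ℤ d δ, qExpand ℤ d δinv, by rw [← map_mul, δ_mul_δinv, map_one], ?_⟩
  have hmem : (Δ ∘ tri d 1 0 : ℍ → ℂ) ∈ HolPer 1 :=
    comp_tri_mem_HolPer 1 d 1 0 (discriminant_mem_HolPer 1) (one_dvd _)
  rw [L_eq (HolPer_le_MF N (HolPer_one_le N hmem)), lau_of_mem_HolPer_one N hmem,
    ofPowerSeries_qExpansion_scale (Nat.pos_of_ne_zero (NeZero.ne d)) (tri d 1 0)
      (coe_tri_one_zero d) periodic_discriminant mdiff_discriminant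
      isBoundedAtImInfty_discriminant, castLS, coeffMap_qExpand, ← castLS_δ]

theorem isFormal_L_W (d : ℕ) (hd : d ∈ N.divisors) : IsFormal N (L N (W d)) := by
  have : NeZero d := ⟨(Nat.pos_of_mem_divisors hd).ne'⟩
  have hW : W d = (Δ ∘ tri d 1 0) * Δ⁻¹ := by
    funext τ
    simp only [W, Pi.mul_apply, Pi.inv_apply, Function.comp_apply]
    rw [tri_eq_heckeDiag, div_eq_mul_inv]
  have u2 := isU_discriminant_tri (N := N) d 1 0 (one_dvd _)
  have u3 := (isU_discriminant (N := N)).inv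
  rw [hW, L_mul u2.mem u3.mem, isU_discriminant.L_inv]
  refine (isFormal_L_tri d).mul (IsFormal.inv ?_)
  have := isFormal_L_tri (N := N) 1
  rwa [discriminant_comp_tri_one] at this

theorem isFormal_L_vfun : IsFormal N (L N (vfun N)) := by
  have hW : ∀ d ∈ N.divisors, IsU N (W d) := fun d hd => by
    have := (W_comp_props N d hd 1).1
    simpa using this
  have hU : ∀ d ∈ N.divisors, IsU N ((W d) ^ rexp N d) := fun d hd => ((hW d hd).zpow _).1
  have hL : L N (vfun N) = ∏ d ∈ N.divisors, (L N (W d)) ^ rexp N d := by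
    rw [vfun, (IsU.prod _ _ hU).2]
    exact Finset.prod_congr rfl fun d hd => ((hW d hd).zpow _).2
  rw [hL]
  exact IsFormal.prod_zpow _ _ _ isFormal_L_W

end formal

end Unit

theorem exists_unit (N : ℕ) [NeZero N] :
    ∃ (u : LaurentSeries ℤ) (v : ℍ → ℂ),
      (∀ γ ∈ Gamma0 N, ∀ τ, v (γ • τ) = v τ) ∧
      (∀ g : SL(2, ℤ), (fun τ => (v (g • τ))⁻¹) ∈ MF N) ∧
      (∀ g : SL(2, ℤ), ∃ h : (fun τ => v (g • τ)) ∈ MF N,
        IsNUnit N (lau N ⟨_, h⟩) ∧ (g ∉ Gamma0 N → (lau N ⟨_, h⟩).order < 0)) ∧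
      ∃ h : v ∈ MF N, lau N ⟨v, h⟩ = qExpand ℂ N (castLS ℂ u) := by
  obtain ⟨u, -, -, hu⟩ := Unit.isFormal_L_vfun (N := N)
  refine ⟨u, Unit.vfun N, fun γ hγ τ => Unit.vfun_invariant N γ hγ τ,
    fun g => (Unit.vfun_comp_props N g).1.inv_mem, fun g => ?_, ?_⟩
  · obtain ⟨h1, h2, h3⟩ := Unit.vfun_comp_props N g
    refine ⟨h1.mem, ?_, ?_⟩
    · rwa [Unit.L_eq h1.mem] at h2
    · rwa [Unit.L_eq h1.mem] at h3
  · have h1 : Unit.IsU N (Unit.vfun N) := by
      have := (Unit.vfun_comp_props N 1).1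
      simpa using this
    exact ⟨h1.mem, by rw [← Unit.L_eq h1.mem]; exact hu⟩

end Fermat.Agent.S28
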