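import Fermat.Agent.S28.Analytic.Conj
import Fermat.Agent.S28.Analytic.Unit
import Fermat.Agent.S28.Analytic.Jd
import Fermat.Agent.Common.JPoly

/-!
# AN7: assembly of the analytic core `exists_rootFamily`
-/

set_option autoImplicit false
noncomputable section
open UpperHalfPlane Function Complex ModularForm CongruenceSubgroup Polynomial ModularCurve
open scoped Manifold MatrixGroups
open Fermat.Agent.S24 Fermat.Agent.Common

namespace Fermat.Agent.S28

local notation "Δ" => ModularForm.discriminant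

/-- A function in `MF N` with non-zero expansion whose pointwise inverse is in `MF N` has no zero. -/
theorem ne_zero_of_inv_mem_MF (N : ℕ) [NeZero N] {v : ℍ → ℂ} (hv : v ∈ MF N) (hv' : v⁻¹ ∈ MF N)
    (h0 : lau N ⟨v, hv⟩ ≠ 0) (τ : ℍ) : v τ ≠ 0 := by
  set w : MF N := ⟨v, hv⟩ * ⟨v⁻¹, hv'⟩ with hw
  have hwτ : ∀ τ, (w : ℍ → ℂ) τ = v τ * (v τ)⁻¹ := fun τ => rfl
  have hww : w * w = w := by
    apply Subtype.ext
    funext τ
    show (w : ℍ → ℂ) τ * (w : ℍ → ℂ) τ = (w : ℍ → ℂ) τ
    rw [hwτ]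
    by_cases h : v τ = 0
    · simp [h]
    · simp [h]
  have h1 : lau N w * lau N w = lau N w := by rw [← map_mul, hww]
  have h2 : lau N w = 0 ∨ lau N w = 1 := by
    by_cases h : lau N w = 0
    · exact Or.inl h
    · right
      exact mul_left_cancel₀ h (by rw [h1, mul_one])
  rcases h2 with h2 | h2
  · exfalso
    rw [hw, map_mul] at h2
    rcases mul_eq_zero.mp h2 with h3 | h3
    · exact h0 h3
    · have h4 : (⟨v⁻¹, hv'⟩ : MF N) = 0 := lau_injective N (by rw [h3, map_zero])
      have h5 : v⁻¹ = 0 := congrArg Subtype.val h4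
      apply h0
      have h6 : (⟨v, hv⟩ : MF N) = 0 := by
        apply Subtype.ext
        funext σ
        have := congrFun h5 σ
        simpa using this
      rw [h6, map_zero]
  · have h3 : w = 1 := lau_injective N (by rw [h2, map_one])
    have h4 : (w : ℍ → ℂ) τ = 1 := by rw [h3]; rfl
    rw [hwτ] at h4
    intro h
    simp [h] at h4

/-- The function `τ ↦ j(dτ)`. -/
def Jd (d : ℕ) [NeZero d] : ℍ → ℂ := fun τ => Jfun (heckeDiagMatrix d • τ)

theorem exists_rootFamily (N : ℕ) [NeZero N] :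
    ∃ (u : LaurentSeries ℤ) (ι : Type) (_ : Fintype ι) (_ : DecidableEq ι) (c₀ : ι)
      (U : ι → LaurentSeries ℂ) (H : ℕ → ι → LaurentSeries ℂ), IsRootFamily N u c₀ U H := by
  obtain ⟨u, v, hvinv, hvinvM, hvM, hv0, hlau⟩ := exists_unit N
  have hv : IsGamma0Inv N v := hvinv
  have huS : ∀ c : Q N, conj N v c ∈ MF N := fun c => (hvM (Quotient.out c)⁻¹).choose
  have huS' : ∀ c : Q N, conj N v⁻¹ c ∈ MF N := fun c => hvinvM (Quotient.out c)⁻¹
  have hJd : ∀ (d : ℕ) [NeZero d], d ∣ N → IsGamma0Inv N (Jd d) := fun d _ hd γ hγ τ =>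
    Jd_invariant N d hd γ hγ τ
  have hJdS : ∀ (d : ℕ) [NeZero d], d ∣ N → ∀ c : Q N, conj N (Jd d) c ∈ MF N :=
    fun d _ hd c => Jd_comp_mem_MF N d hd (Quotient.out c)⁻¹
  have hpoly : ∀ f : MF N, IsSL2Inv (f : ℍ → ℂ) → ∃ P : ℂ[X], f = aeval (jM N) P :=
    fun f hf => exists_eq_aeval_jM N f hf
  have hLJ : lauAlg N (jM N) = jN N := lauAlg_jM N
  have hunit : ∀ c : Q N, IsNUnit N (lau N ⟨conj N v c, huS c⟩) := fun c =>
    (hvM (Quotient.out c)⁻¹).choose_spec.1
  have hvne : ∀ τ, v τ ≠ 0 := by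
    have h1 : v⁻¹ ∈ MF N := by
      have := hvinvM 1
      simp only [one_smul] at this
      exact this
    refine ne_zero_of_inv_mem_MF N hv0 h1 ?_
    have := (hunit (Q.base N)).1
    simpa only [conj_base hv] using this
  refine ⟨u, Q N, Q.fintype N, Q.decEq N, Q.base N, fun c => lauAlg N ⟨conj N v c, huS c⟩,
    fun d c => if h : d ∣ N then
      haveI : NeZero d := ⟨fun h0 => NeZero.ne N (by rw [h0] at h; exact Nat.eq_zero_of_zero_dvd h)⟩
      lauAlg N ⟨conj N (Jd d) c, hJdS d h c⟩ else 0, ?_⟩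
  refine
    { U_c₀ := ?_
      U_ne := fun c => (hunit c).1
      U_int := fun c => (hunit c).2.1
      Uinv_int := fun c => (hunit c).2.2
      order_neg := ?_
      charpoly_coeff := ?_
      prod_inv := ?_
      H_c₀ := ?_
      lagrange_coeff := ?_ }
  · rw [← hlau, lauAlg_apply]
    congr 2
    exact conj_base hv
  · intro c hc
    refine (hvM (Quotient.out c)⁻¹).choose_spec.2 ?_
    intro hmem
    apply hc
    have h1 : Quotient.out c ∈ Gamma0 N := by simpa using inv_mem hmem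
    have h2 : ((Quotient.out c : SL(2, ℤ)) : Q N) = c := Quotient.out_eq' c
    by_contra hne
    exact not_mem_of_ne_base (N := N) (g := Quotient.out c) (by rw [h2]; exact hne) h1
  · intro i
    rw [← hLJ]
    exact charpoly_coeff_of (MF N) (lauAlg N) _ hpoly hv huS i
  · rw [← hLJ]
    exact prod_inv_of (MF N) (lauAlg N) _ hpoly hv hvne huS huS'
  · intro d _ hd
    rw [dif_pos hd, lauAlg_apply]
    have h1 : (fun τ => Jfun (heckeDiagMatrix d • τ)) ∈ MF N := by
      have := hJdS d hd (Q.base N)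
      rwa [conj_base (hJd d hd)] at this
    rw [← lau_Jd N d hd h1]
    congr 2
    exact conj_base (hJd d hd)
  · intro d hd i
    have : NeZero d := ⟨fun h0 => NeZero.ne N (by rw [h0] at hd; exact Nat.eq_zero_of_zero_dvd hd)⟩
    simp only [dif_pos hd]
    rw [← hLJ]
    exact lagrange_coeff_of (MF N) (lauAlg N) _ hpoly hv (hJd d hd) huS (hJdS d hd) i

end Fermat.Agent.S28
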