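import Mathlib

/-!
# Arithmetic of the exponents of the modular unit (S28, AN5)

`r_d = d * μ (N / d)` for `d ∣ N`.
* `sum_moebius_gcd_sq` : `∑_{d ∣ N} μ (N/d) * gcd (c, d)^2 = 0` unless `N ∣ c`;
* `sum_moebius_mul_id_pos` : `∑_{d ∣ N} μ (N/d) * d = φ N > 0`.
-/

set_option autoImplicit false

namespace Fermat.Agent.S28

open ArithmeticFunction Finset
open scoped ArithmeticFunction.Moebius

/-- Jordan's totient `J₂ = μ * id²`, as an integer valued function. -/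
def jordanTwo (n : ℕ) : ℤ := ∑ x ∈ n.divisorsAntidiagonal, (μ x.1 : ℤ) * (x.2 : ℤ) ^ 2

theorem sum_jordanTwo (n : ℕ) (hn : 0 < n) : ∑ i ∈ n.divisors, jordanTwo i = (n : ℤ) ^ 2 := by
  have := (sum_eq_iff_sum_mul_moebius_eq (R := ℤ) (f := jordanTwo)
    (g := fun n => (n : ℤ) ^ 2)).mpr (fun n _ => rfl)
  exact this n hn

theorem sum_moebius_gcd_sq_antidiagonal (c : ℕ) (n : ℕ) (hn : 0 < n) :
    ∑ x ∈ n.divisorsAntidiagonal, (μ x.1 : ℤ) * (Nat.gcd x.2 c : ℤ) ^ 2 =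
      if n ∣ c then jordanTwo n else 0 := by
  refine (sum_eq_iff_sum_mul_moebius_eq (R := ℤ) (f := fun n => if n ∣ c then jordanTwo n else 0)
    (g := fun n => (Nat.gcd n c : ℤ) ^ 2)).mp (fun m hm => ?_) n hn
  rw [← Finset.sum_filter, ← sum_jordanTwo _ (Nat.gcd_pos_of_pos_left c hm)]
  refine Finset.sum_congr ?_ fun _ _ => rfl
  ext d
  simp only [Finset.mem_filter, Nat.mem_divisors, Nat.dvd_gcd_iff]
  constructor
  · rintro ⟨⟨h1, _⟩, h2⟩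
    exact ⟨⟨h1, h2⟩, (Nat.gcd_pos_of_pos_left c hm).ne'⟩
  · rintro ⟨⟨h1, h2⟩, _⟩
    exact ⟨⟨h1, hm.ne'⟩, h2⟩

/-- The key identity: `∑_{d ∣ N} μ (N/d) * gcd (d, c)^2 = 0` unless `N ∣ c`. -/
theorem sum_moebius_gcd_sq (c : ℕ) (n : ℕ) (hn : 0 < n) (h : ¬ n ∣ c) :
    ∑ d ∈ n.divisors, (μ (n / d) : ℤ) * (Nat.gcd d c : ℤ) ^ 2 = 0 := by
  have := sum_moebius_gcd_sq_antidiagonal c n hn
  rw [if_neg h, Nat.sum_divisorsAntidiagonal' (f := fun a b => (μ a : ℤ) * (Nat.gcd b c : ℤ) ^ 2)]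
    at this
  exact this

theorem sum_moebius_mul_id (n : ℕ) (hn : 0 < n) :
    ∑ d ∈ n.divisors, (μ (n / d) : ℤ) * (d : ℤ) = (Nat.totient n : ℤ) := by
  have := (sum_eq_iff_sum_mul_moebius_eq (R := ℤ) (f := fun n => (Nat.totient n : ℤ))
    (g := fun n => (n : ℤ))).mp (fun m _ => by exact_mod_cast Nat.sum_totient m) n hn
  simp only [Int.cast_id] at this
  rw [Nat.sum_divisorsAntidiagonal' (f := fun a b => (μ a : ℤ) * (b : ℤ))] at this
  exact this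

theorem sum_moebius_mul_id_pos (n : ℕ) (hn : 0 < n) :
    0 < ∑ d ∈ n.divisors, (μ (n / d) : ℤ) * (d : ℤ) := by
  rw [sum_moebius_mul_id n hn]
  exact_mod_cast Nat.totient_pos.mpr hn

end Fermat.Agent.S28
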