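import Fermat.Agent.S28.Defs
import Fermat.Agent.S28.Analytic.UnitArith

/-!
# The formal modular unit (S28, AN5 part C)

`u = ∏_{d ∣ N} (Δ(q^d)/Δ(q))^{d μ(N/d)}` as a unit of `LaurentSeries R`, for every commutative
ring `R`, compatible with base change.
-/

set_option autoImplicit false
noncomputable section
open Polynomial ModularCurve
open scoped ArithmeticFunction.Moebius

namespace Fermat.Agent.S28

/-- The exponents `r_d = d μ(N/d)`. -/
def expo (N d : ℕ) : ℤ := (d : ℤ) * μ (N / d)

/-- `qExpand` without the `NeZero` instance argument. -/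
def qE (R : Type*) [CommRing R] (d : ℕ) : LaurentSeries R →+* LaurentSeries R :=
  if h : d = 0 then RingHom.id _ else @qExpand R _ d ⟨h⟩

theorem qE_eq (R : Type*) [CommRing R] (d : ℕ) [NeZero d] : qE R d = qExpand R d := by
  rw [qE, dif_neg (NeZero.ne d)]

theorem coeffMap_qE {R S : Type*} [CommRing R] [CommRing S] (f : R →+* S) (d : ℕ)
    (x : LaurentSeries R) : coeffMap f (qE R d x) = qE S d (coeffMap f x) := by
  rcases eq_or_ne d 0 with rfl | hd
  · simp [qE]
  · have : NeZero d := ⟨hd⟩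
    rw [qE_eq, qE_eq, coeffMap_qExpand]

variable (R : Type*) [CommRing R]

/-- The formal `Δ = q ∏ (1 - qⁿ)²⁴`. -/
def DeltaS : LaurentSeries R :=
  HahnSeries.single (1 : ℤ) 1 *
    HahnSeries.ofPowerSeries ℤ R (dedekindEtaUnit.map (Int.castRingHom R))

/-- The formal `Δ⁻¹`. -/
def DeltaSInv : LaurentSeries R :=
  HahnSeries.single (-1 : ℤ) 1 *
    HahnSeries.ofPowerSeries ℤ R (dedekindEtaUnitInv.map (Int.castRingHom R))

theorem DeltaS_mul_inv : DeltaS R * DeltaSInv R = 1 := by
  have h1 : HahnSeries.ofPowerSeries ℤ R (dedekindEtaUnit.map (Int.castRingHom R)) *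
      HahnSeries.ofPowerSeries ℤ R (dedekindEtaUnitInv.map (Int.castRingHom R)) = 1 := by
    rw [← map_mul, ← map_mul, dedekindEtaUnit_mul_inv, map_one, map_one]
  have h2 : (HahnSeries.single (1 : ℤ) (1 : R)) * HahnSeries.single (-1 : ℤ) (1 : R) = 1 := by
    rw [HahnSeries.single_mul_single]
    simp
  calc DeltaS R * DeltaSInv R
      = ((HahnSeries.single (1 : ℤ) (1 : R)) * HahnSeries.single (-1 : ℤ) (1 : R)) *
        (HahnSeries.ofPowerSeries ℤ R (dedekindEtaUnit.map (Int.castRingHom R)) *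
      HahnSeries.ofPowerSeries ℤ R (dedekindEtaUnitInv.map (Int.castRingHom R))) := by
        rw [DeltaS, DeltaSInv]; ring
    _ = 1 := by rw [h1, h2, one_mul]

/-- The formal `Δ` as a unit. -/
def DeltaU : (LaurentSeries R)ˣ :=
  ⟨DeltaS R, DeltaSInv R, DeltaS_mul_inv R, by rw [mul_comm]; exact DeltaS_mul_inv R⟩

@[simp] theorem val_DeltaU : (DeltaU R : LaurentSeries R) = DeltaS R := rfl

variable {R} in
theorem coeffMap_DeltaS {S : Type*} [CommRing S] (f : R →+* S) :
    coeffMap f (DeltaS R) = DeltaS S := by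
  rw [DeltaS, DeltaS, map_mul, coeffMap_single, map_one, coeffMap_ofPowerSeries,
    ← RingHom.comp_apply (PowerSeries.map f) (PowerSeries.map (Int.castRingHom R)),
    ← PowerSeries.map_comp, RingHom.ext_int (f.comp (Int.castRingHom R)) (Int.castRingHom S)]

/-- The formal unit. -/
def uUnit (N : ℕ) : (LaurentSeries R)ˣ :=
  ∏ d ∈ N.divisors, (Units.map (qE R d : LaurentSeries R →* LaurentSeries R) (DeltaU R) /
    DeltaU R) ^ expo N d

variable {R} in
theorem map_uUnit {S : Type*} [CommRing S] (f : R →+* S) (N : ℕ) :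
    Units.map (coeffMap f : LaurentSeries R →* LaurentSeries S) (uUnit R N) = uUnit S N := by
  rw [uUnit, uUnit, map_prod]
  refine Finset.prod_congr rfl fun d _ => ?_
  rw [map_zpow, _root_.map_div]
  congr 2
  · ext1
    simp [coeffMap_qE, coeffMap_DeltaS]
  · ext1
    simp [coeffMap_DeltaS]

/-- The formal unit over `ℤ`. -/
def uForm (N : ℕ) : LaurentSeries ℤ := uUnit ℤ N

theorem castLS_uForm (A : Type*) [CommRing A] (N : ℕ) : castLS A (uForm N) = uUnit A N := by
  rw [← map_uUnit (Int.castRingHom A)]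
  rfl

theorem val_uUnit_field (K : Type*) [Field K] (N : ℕ) :
    (uUnit K N : LaurentSeries K) =
      ∏ d ∈ N.divisors, (qE K d (DeltaS K) / DeltaS K) ^ expo N d := by
  rw [uUnit, Units.coe_prod]
  refine Finset.prod_congr rfl fun d _ => ?_
  rw [Units.val_zpow_eq_zpow_val, Units.val_div_eq_div_val]
  rfl

end Fermat.Agent.S28
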