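import Fermat.Agent.S28.Analytic.MFDefs
import Fermat.Agent.Common.JPoly

/-!
# S28, analytic core, AN1: meromorphic-at-infinity functions and their `t = q^{1/N}` expansions

`MF N` is the algebra of functions `f : ℍ → ℂ` such that `f * Δ ^ M` is holomorphic, `N`-periodic
and bounded at `i∞` for some `M`; `lau N : MF N →+* LaurentSeries ℂ` (`lauAlg N` as an algebra hom) is the (injective) expansion
in `t = q^{1/N}`.
-/

set_option autoImplicit false

open UpperHalfPlane hiding I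
open Complex Function Filter ModularForm EisensteinSeries
open scoped Manifold MatrixGroups ModularForm Topology Real
open Fermat.Agent.S24

namespace Fermat.Agent.S28

noncomputable section

local notation "Δ" => ModularForm.discriminant
local notation "𝕢" => Periodic.qParam
local notation "ι" => HahnSeries.ofPowerSeries ℤ ℂ

/-! ### Changing the period -/

theorem qParam_pow_nat (N : ℕ) [NeZero N] (z : ℂ) : 𝕢 (N : ℝ) z ^ N = 𝕢 1 z := by
  have hN : (N : ℂ) ≠ 0 := by exact_mod_cast NeZero.ne N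
  simp only [Periodic.qParam, ← Complex.exp_nat_mul]
  congr 1
  push_cast
  field_simp

theorem HolPer_one_le (N : ℕ) : HolPer 1 ≤ HolPer N := by
  rintro f ⟨h1, h2, h3⟩
  refine ⟨h1, ?_, h3⟩
  have := h2.nat_mul N
  simpa using this

/-- The `q_N`-expansion of a `1`-periodic function. -/
theorem qExpansion_nat_coeff (N : ℕ) [NeZero N] {f : ℍ → ℂ} (hf : f ∈ HolPer 1) (n : ℕ) :
    (qExpansion (N : ℝ) f).coeff n = if N ∣ n then (qExpansion 1 f).coeff (n / N) else 0 := by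
  have hN : 0 < N := Nat.pos_of_ne_zero (NeZero.ne N)
  have hf' := HolPer_one_le N hf
  have han : AnalyticAt ℂ (cuspFunction (N : ℝ) f) 0 := HolPer.analyticAt N ⟨f, hf'⟩
  have key : ∀ τ : ℍ, HasSum (fun m : ℕ =>
      (if N ∣ m then (qExpansion 1 f).coeff (m / N) else 0) • 𝕢 (N : ℝ) (τ : ℂ) ^ m) (f τ) := by
    intro τ
    have h1 : HasSum (fun m : ℕ => (qExpansion 1 f).coeff m • 𝕢 1 (τ : ℂ) ^ m) (f τ) :=
      hasSum_qExpansion one_pos (by simpa using hf.2.1) hf.1 hf.2.2 τ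
    rw [← qParam_pow_nat N] at h1
    have hinj : Function.Injective (fun m : ℕ => N * m) := fun a b h =>
      Nat.eq_of_mul_eq_mul_left hN h
    refine (hinj.hasSum_iff ?_).mp ?_
    · intro x hx
      have hx' : ¬ N ∣ x := fun ⟨m, hm⟩ => hx ⟨m, hm.symm⟩
      rw [if_neg hx', zero_smul]
    · have h2 : ((fun m : ℕ =>
          (if N ∣ m then (qExpansion 1 f).coeff (m / N) else 0) • 𝕢 (N : ℝ) (τ : ℂ) ^ m) ∘
            fun m : ℕ => N * m) =
          fun m : ℕ => (qExpansion 1 f).coeff m • (𝕢 (N : ℝ) (τ : ℂ) ^ N) ^ m := by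
        funext m
        simp only [comp_apply]
        rw [if_pos (dvd_mul_right N m), Nat.mul_div_cancel_left _ hN, pow_mul]
      rw [h2]
      exact h1
  exact (@qExpansion_coeff_unique (ℍ → ℂ) ⟨fun g => g, fun _ _ h => h⟩ (N : ℝ) f _
    (HolPer.pos N) han key n).symm

/-- The `q_N`-expansion of a `1`-periodic function, for Laurent series. -/
theorem ofPowerSeries_qExpansion_nat (N : ℕ) [NeZero N] {f : ℍ → ℂ} (hf : f ∈ HolPer 1) :
    ι (qExpansion (N : ℝ) f) = ModularCurve.qExpand ℂ N (ι (qExpansion 1 f)) := by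
  have hN : 0 < N := Nat.pos_of_ne_zero (NeZero.ne N)
  ext k
  by_cases hk : (N : ℤ) ∣ k
  · obtain ⟨m, rfl⟩ := hk
    rw [ModularCurve.qExpand_coeff_mul]
    rcases le_or_gt 0 m with hm | hm
    · lift m to ℕ using hm
      rw [show (N : ℤ) * (m : ℤ) = ((N * m : ℕ) : ℤ) by push_cast; ring,
        HahnSeries.ofPowerSeries_apply_coeff, HahnSeries.ofPowerSeries_apply_coeff,
        qExpansion_nat_coeff N hf, if_pos (dvd_mul_right _ _),
        Nat.mul_div_cancel_left _ hN]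
    · rw [ModularCurve.ofPowerSeries_coeff_of_neg _ hm, ModularCurve.ofPowerSeries_coeff_of_neg]
      exact mul_neg_of_pos_of_neg (by exact_mod_cast hN) hm
  · rw [ModularCurve.qExpand_coeff_of_not_dvd _ _ hk]
    rcases le_or_gt 0 k with hk0 | hk0
    · lift k to ℕ using hk0
      rw [HahnSeries.ofPowerSeries_apply_coeff, qExpansion_nat_coeff N hf,
        if_neg (fun h => hk (by exact_mod_cast h))]
    · exact ModularCurve.ofPowerSeries_coeff_of_neg _ hk0

/-! ### `Δ` and `E₄` -/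

theorem discriminant_mem_HolPer_one : Δ ∈ HolPer 1 :=
  ⟨mdiff_discriminant, by simpa using periodic_discriminant, isBoundedAtImInfty_discriminant⟩

theorem E4_mem_HolPer_one : (E₄ : ℍ → ℂ) ∈ HolPer 1 :=
  ⟨mdiff_E4, by simpa using periodic_E4, isBoundedAtImInfty_E4⟩

theorem E4_mem_HolPer (N : ℕ) : (E₄ : ℍ → ℂ) ∈ HolPer N :=
  HolPer_one_le N E4_mem_HolPer_one

/-- `Δ` as an element of `HolPer N`. -/
def discH (N : ℕ) : HolPer N := ⟨Δ, discriminant_mem_HolPer N⟩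

/-! ### The algebra `MF N` -/

theorem mem_MF_of_mul_pow {N : ℕ} {f : ℍ → ℂ} (M : ℕ) (h : f * Δ ^ M ∈ HolPer N) : f ∈ MF N :=
  ⟨M, h⟩

theorem mul_pow_mem_of_le {N : ℕ} {f : ℍ → ℂ} {M M' : ℕ} (h : f * Δ ^ M ∈ HolPer N)
    (hM : M ≤ M') : f * Δ ^ M' ∈ HolPer N := by
  obtain ⟨k, rfl⟩ := Nat.exists_eq_add_of_le hM
  have : f * Δ ^ (M + k) = (f * Δ ^ M) * Δ ^ k := by ring
  rw [this]
  exact mul_mem h (pow_mem (discriminant_mem_HolPer N) _)

theorem discriminant_mul_inv : Δ * Δ⁻¹ = 1 := by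
  funext τ
  simp [ModularForm.discriminant_ne_zero τ]

theorem inv_discriminant_mem_MF (N : ℕ) : Δ⁻¹ ∈ MF N :=
  ⟨1, by
    rw [pow_one, mul_comm, discriminant_mul_inv]
    exact one_mem _⟩

theorem MF_mdiff {N : ℕ} {f : ℍ → ℂ} (hf : f ∈ MF N) : MDiff f := by
  obtain ⟨M, hM⟩ := hf
  have h1 : MDiff ((f * Δ ^ M) / Δ ^ M) :=
    hM.1.div (mdiff_discriminant.pow M) (fun τ => pow_ne_zero _ (ModularForm.discriminant_ne_zero τ))
  have h2 : (f * Δ ^ M) / Δ ^ M = f := by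
    funext τ
    simp [ModularForm.discriminant_ne_zero τ]
  rwa [h2] at h1

variable (N : ℕ) [NeZero N]

/-- The `t`-expansion of `Δ`. -/
def lauDisc : LaurentSeries ℂ := qExpLaurent N (discH N)

theorem lauDisc_ne_zero : lauDisc N ≠ 0 := by
  intro h
  have h1 : discH N = 0 := (map_eq_zero_iff _ (qExpLaurent_injective N)).mp h
  have h2 := congrArg (fun g : HolPer N => (g : ℍ → ℂ) UpperHalfPlane.I) h1
  exact ModularForm.discriminant_ne_zero _ h2

/-- Auxiliary: the value of `lau` computed with a given exponent. -/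
def lauAux (f : ℍ → ℂ) (M : ℕ) (h : f * Δ ^ M ∈ HolPer N) : LaurentSeries ℂ :=
  qExpLaurent N ⟨f * Δ ^ M, h⟩ / lauDisc N ^ M

theorem lauAux_eq (f : ℍ → ℂ) (M M' : ℕ) (h : f * Δ ^ M ∈ HolPer N) (h' : f * Δ ^ M' ∈ HolPer N) :
    lauAux N f M h = lauAux N f M' h' := by
  rw [lauAux, lauAux, div_eq_div_iff (pow_ne_zero _ (lauDisc_ne_zero N))
    (pow_ne_zero _ (lauDisc_ne_zero N)), lauDisc, ← map_pow, ← map_pow, ← map_mul, ← map_mul]
  congr 1
  apply Subtype.ext
  change (f * Δ ^ M) * Δ ^ M' = (f * Δ ^ M') * Δ ^ M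
  ring

/-- The `t = q^{1/N}`-expansion on `MF N`, as a plain function. -/
def lauFun (f : MF N) : LaurentSeries ℂ := lauAux N f.1 f.2.choose f.2.choose_spec

theorem lauFun_eq (f : MF N) (M : ℕ) (h : f.1 * Δ ^ M ∈ HolPer N) :
    lauFun N f = qExpLaurent N ⟨f.1 * Δ ^ M, h⟩ / lauDisc N ^ M :=
  lauAux_eq N f.1 _ M _ h

theorem lauFun_of_mem (f : MF N) (h : f.1 ∈ HolPer N) :
    lauFun N f = qExpLaurent N ⟨f.1, h⟩ := by
  have h0 : f.1 * Δ ^ 0 ∈ HolPer N := by simpa using h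
  rw [lauFun_eq N f 0 h0, pow_zero (lauDisc N), div_one]
  congr 1
  apply Subtype.ext
  simp

/-- The `t = q^{1/N}`-expansion on `MF N`, as an algebra homomorphism. -/
def lauAlg : MF N →ₐ[ℂ] LaurentSeries ℂ where
  toFun := lauFun N
  map_one' := by
    rw [lauFun_of_mem N 1 (one_mem _)]
    exact map_one (qExpLaurent N)
  map_zero' := by
    rw [lauFun_of_mem N 0 (zero_mem _)]
    exact map_zero (qExpLaurent N)
  map_mul' := by
    rintro ⟨f, M, hf⟩ ⟨g, M', hg⟩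
    have e : f * g * Δ ^ (M + M') = (f * Δ ^ M) * (g * Δ ^ M') := by ring
    have hfg : f * g * Δ ^ (M + M') ∈ HolPer N := by
      rw [e]; exact mul_mem hf hg
    rw [lauFun_eq N ⟨f, M, hf⟩ M hf, lauFun_eq N ⟨g, M', hg⟩ M' hg,
      lauFun_eq N (⟨f, M, hf⟩ * ⟨g, M', hg⟩) (M + M') hfg, div_mul_div_comm, ← pow_add, ← map_mul]
    congr 2
    exact Subtype.ext e
  map_add' := by
    rintro ⟨f, M, hf⟩ ⟨g, M', hg⟩
    have hf' : f * Δ ^ (M + M') ∈ HolPer N := mul_pow_mem_of_le hf (Nat.le_add_right _ _)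
    have hg' : g * Δ ^ (M + M') ∈ HolPer N := mul_pow_mem_of_le hg (Nat.le_add_left _ _)
    have e : (f + g) * Δ ^ (M + M') = f * Δ ^ (M + M') + g * Δ ^ (M + M') := by ring
    have hfg : (f + g) * Δ ^ (M + M') ∈ HolPer N := by
      rw [e]; exact add_mem hf' hg'
    rw [lauFun_eq N ⟨f, M, hf⟩ (M + M') hf', lauFun_eq N ⟨g, M', hg⟩ (M + M') hg',
      lauFun_eq N (⟨f, M, hf⟩ + ⟨g, M', hg⟩) (M + M') hfg, ← add_div, ← map_add]
    congr 2
    exact Subtype.ext e
  commutes' := by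
    intro c
    rw [lauFun_of_mem N _ ((HolPer N).algebraMap_mem c)]
    have : (⟨(algebraMap ℂ (MF N) c).1, (HolPer N).algebraMap_mem c⟩ : HolPer N) =
        algebraMap ℂ (HolPer N) c := rfl
    rw [this, qExpLaurent]
    simp only [RingHom.coe_comp, comp_apply, AlgHom.toRingHom_eq_coe, RingHom.coe_coe,
      AlgHom.commutes]
    rw [HahnSeries.algebraMap_apply']

/-- The `t = q^{1/N}`-expansion on `MF N`. -/
def lau : MF N →+* LaurentSeries ℂ := (lauAlg N).toRingHom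

theorem lauAlg_apply (f : MF N) : lauAlg N f = lau N f := rfl

theorem coe_lauAlg : ((lauAlg N : MF N →ₐ[ℂ] LaurentSeries ℂ) : MF N →+* LaurentSeries ℂ) = lau N :=
  rfl

theorem lau_eq_div (f : MF N) (M : ℕ) (h : f.1 * Δ ^ M ∈ HolPer N) :
    lau N f = qExpLaurent N ⟨f.1 * Δ ^ M, h⟩ / lauDisc N ^ M :=
  lauFun_eq N f M h

/-- `lau` extends `qExpLaurent`. -/
theorem lau_eq_qExpLaurent {f : ℍ → ℂ} (hf : f ∈ HolPer N) :
    lau N ⟨f, HolPer_le_MF N hf⟩ = qExpLaurent N ⟨f, hf⟩ :=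
  lauFun_of_mem N ⟨f, HolPer_le_MF N hf⟩ hf

theorem lau_of_mem_HolPer {f : ℍ → ℂ} (hf : f ∈ HolPer N) :
    lau N ⟨f, HolPer_le_MF N hf⟩ = HahnSeries.ofPowerSeries ℤ ℂ (qExpansion (N : ℝ) f) :=
  lau_eq_qExpLaurent N hf

theorem lau_algebraMap' (c : ℂ) :
    lau N (algebraMap ℂ (MF N) c) = algebraMap ℂ (LaurentSeries ℂ) c :=
  (lauAlg N).commutes c

theorem lau_algebraMap (c : ℂ) : lau N (algebraMap ℂ (MF N) c) = HahnSeries.C c := by
  rw [lau_algebraMap', HahnSeries.algebraMap_apply']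
  simp

/-- `Δ` as an element of `MF N`. -/
def discM : MF N := ⟨Δ, HolPer_le_MF N (discriminant_mem_HolPer N)⟩

theorem lau_discM_eq_lauDisc : lau N (discM N) = lauDisc N :=
  lau_eq_qExpLaurent N (discriminant_mem_HolPer N)

theorem lau_mul_pow (f : MF N) (M : ℕ) (h : f.1 * Δ ^ M ∈ HolPer N) :
    lau N f * lau N (discM N) ^ M = qExpLaurent N ⟨f.1 * Δ ^ M, h⟩ := by
  rw [lau_discM_eq_lauDisc, lau_eq_div N f M h,
    div_mul_cancel₀ _ (pow_ne_zero _ (lauDisc_ne_zero N))]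

theorem lau_mul_pow' (f : MF N) (M : ℕ) (h : f.1 * Δ ^ M ∈ HolPer N) :
    lau N f * lau N (discM N) ^ M = ι (qExpansion (N : ℝ) (f.1 * Δ ^ M)) :=
  lau_mul_pow N f M h

theorem lau_injective : Injective (lau N) := by
  rw [injective_iff_map_eq_zero]
  rintro ⟨f, M, hf⟩ h0
  rw [lau_eq_div N _ M hf, div_eq_zero_iff] at h0
  rcases h0 with h0 | h0
  · have h1 := (map_eq_zero_iff _ (qExpLaurent_injective N)).mp h0
    apply Subtype.ext
    funext τ
    have h2 := congrArg (fun g : HolPer N => (g : ℍ → ℂ) τ) h1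
    simpa [ModularForm.discriminant_ne_zero τ] using h2
  · exact absurd h0 (pow_ne_zero _ (lauDisc_ne_zero N))

/-- `lau` of a `1`-periodic function. -/
theorem lau_of_mem_HolPer_one {f : ℍ → ℂ} (hf : f ∈ HolPer 1) :
    lau N ⟨f, HolPer_le_MF N (HolPer_one_le N hf)⟩ =
      ModularCurve.qExpand ℂ N (HahnSeries.ofPowerSeries ℤ ℂ (qExpansion 1 f)) := by
  rw [lau_of_mem_HolPer N (HolPer_one_le N hf), ofPowerSeries_qExpansion_nat N hf]

theorem lau_discM :
    lau N (discM N) = ModularCurve.qExpand ℂ N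
      (ι (PowerSeries.X * ModularCurve.dedekindEtaUnit.map (Int.castRingHom ℂ))) := by
  rw [← qExpansion_discriminant]
  exact lau_of_mem_HolPer_one N discriminant_mem_HolPer_one

theorem lau_discM_ne_zero : lau N (discM N) ≠ 0 := by
  rw [lau_discM_eq_lauDisc]; exact lauDisc_ne_zero N

/-- `E₄` as an element of `MF N`. -/
def E4M : MF N := ⟨E₄, HolPer_le_MF N (E4_mem_HolPer N)⟩

theorem lau_E4M :
    lau N (E4M N) = ModularCurve.qExpand ℂ N
      (ι (ModularCurve.eisenstein4.map (Int.castRingHom ℂ))) := by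
  rw [← qExpansion_E4]
  exact lau_of_mem_HolPer_one N E4_mem_HolPer_one

/-- `Δ⁻¹` as an element of `MF N`. -/
def discInvM : MF N := ⟨Δ⁻¹, inv_discriminant_mem_MF N⟩

omit [NeZero N] in
theorem discM_mul_discInvM : discM N * discInvM N = 1 :=
  Subtype.ext discriminant_mul_inv

theorem lau_eq_inv_of_mul_eq_one {f g : MF N} (h : f * g = 1) : lau N g = (lau N f)⁻¹ := by
  apply eq_inv_of_mul_eq_one_right
  rw [← map_mul, h, map_one]

theorem lau_discInvM : lau N (discInvM N) = (lau N (discM N))⁻¹ :=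
  lau_eq_inv_of_mul_eq_one N (discM_mul_discInvM N)

omit [NeZero N] in
theorem Jfun_mem_MF : Jfun ∈ MF N := by
  have : Jfun = (E₄ : ℍ → ℂ) ^ 3 * Δ⁻¹ := by
    funext τ
    simp [Jfun, div_eq_mul_inv]
  rw [this]
  exact mul_mem (pow_mem (E4M N).2 3) (discInvM N).2

/-- The `j`-function as an element of `MF N`. -/
def jM : MF N := ⟨Jfun, Jfun_mem_MF N⟩

omit [NeZero N] in
theorem jM_eq : jM N = E4M N ^ 3 * discInvM N := by
  apply Subtype.ext
  funext τ
  simp [jM, E4M, discInvM, Jfun, div_eq_mul_inv]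

/-- The `t`-expansion of `j` is `j(t^N)`. -/
theorem lau_Jfun : lau N ⟨Jfun, Jfun_mem_MF N⟩ = jN N := by
  have h1 : lau N (E4M N) = ModularCurve.qExpand ℂ N (ι (qExpansion 1 E₄)) :=
    lau_of_mem_HolPer_one N E4_mem_HolPer_one
  have h2 : lau N (discM N) = ModularCurve.qExpand ℂ N (ι (qExpansion 1 Δ)) :=
    lau_of_mem_HolPer_one N discriminant_mem_HolPer_one
  change lau N (jM N) = jN N
  rw [jM_eq, map_mul, map_pow, lau_discInvM, ← div_eq_mul_inv,
    div_eq_iff (lau_discM_ne_zero N), h1, h2, jN, ← map_pow, ← map_mul,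
    ofPowerSeries_qExpansion_E4_pow]

theorem lau_jM : lau N (jM N) = jN N := lau_Jfun N

theorem lauAlg_jM : lauAlg N (jM N) = jN N := lau_Jfun N

/-- `lau` of a polynomial in `j`. -/
theorem lau_aeval_jM (P : Polynomial ℂ) :
    lau N (Polynomial.aeval (jM N) P) = Polynomial.aeval (jN N) P := by
  rw [← lauAlg_jM, Polynomial.aeval_algHom_apply]
  rfl

omit [NeZero N] in
theorem coe_aeval_jM (P : Polynomial ℂ) (τ : ℍ) :
    (Polynomial.aeval (jM N) P : MF N).1 τ = P.eval (Jfun τ) := by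
  have h1 : ((Polynomial.aeval (jM N) P : MF N) : ℍ → ℂ) = Polynomial.aeval Jfun P := by
    have := Polynomial.aeval_algHom_apply (MF N).val (jM N) P
    exact this.symm
  change ((Polynomial.aeval (jM N) P : MF N) : ℍ → ℂ) τ = _
  rw [h1]
  have h2 := Polynomial.aeval_algHom_apply (Pi.evalAlgHom ℂ (fun _ : ℍ => ℂ) τ) Jfun P
  simp only [Pi.evalAlgHom_apply] at h2
  rw [← h2, Polynomial.coe_aeval_eq_eval]

omit [NeZero N] in
/-- A function that is pointwise a polynomial in `j` is that polynomial in `jM`. -/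
theorem eq_aeval_jM (P : Polynomial ℂ) (f : MF N) (h : ∀ τ, f.1 τ = P.eval (Jfun τ)) :
    f = Polynomial.aeval (jM N) P := by
  apply Subtype.ext
  funext τ
  rw [h τ, coe_aeval_jM]

/-- Evaluation of a polynomial at `Jfun`. -/
theorem lau_eval_Jfun (P : Polynomial ℂ) {f : ℍ → ℂ} (hf : f ∈ MF N)
    (h : ∀ τ, f τ = P.eval (Jfun τ)) : lau N ⟨f, hf⟩ = Polynomial.aeval (jN N) P := by
  rw [← lau_aeval_jM, eq_aeval_jM N P ⟨f, hf⟩ h]

omit [NeZero N] in
/-- An `SL(2,ℤ)`-invariant element of `MF N` is a polynomial in `j` (the hypothesis `hpoly` of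
`Analytic/Conj.lean`). -/
theorem exists_eq_aeval_jM (f : MF N)
    (hinv : ∀ (γ : SL(2, ℤ)) (τ : ℍ), f.1 (γ • τ) = f.1 τ) :
    ∃ P : Polynomial ℂ, f = Polynomial.aeval (jM N) P := by
  obtain ⟨M, hM⟩ := f.2
  have hb : IsBoundedAtImInfty (fun τ => Δ τ ^ M * f.1 τ) := by
    have : (fun τ => Δ τ ^ M * f.1 τ) = f.1 * Δ ^ M := by
      funext τ
      simp [mul_comm]
    rw [this]
    exact hM.2.2
  obtain ⟨P, -, hP⟩ := Common.JPoly.exists_polynomial_of_invariant f.1 (MF_mdiff f.2) hinv M hb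
  exact ⟨P, eq_aeval_jM N P f hP⟩

/-- An `SL(2,ℤ)`-invariant element of `MF N` is a polynomial in `j`; version for expansions. -/
theorem exists_lau_eq_aeval_jN (f : MF N)
    (hinv : ∀ (γ : SL(2, ℤ)) (τ : ℍ), f.1 (γ • τ) = f.1 τ) :
    ∃ P : Polynomial ℂ, lau N f = Polynomial.aeval (jN N) P := by
  obtain ⟨P, hP⟩ := exists_eq_aeval_jM N f hinv
  exact ⟨P, by rw [hP, lau_aeval_jM]⟩

theorem lau_ne_zero {f : MF N} (h : f ≠ 0) : lau N f ≠ 0 :=
  (map_ne_zero_iff _ (lau_injective N)).mpr h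

end

end Fermat.Agent.S28
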