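import Fermat.Agent.S28.Defs
import Fermat.Agent.S24.HolPer
import Fermat.Agent.S24.QExp
import Fermat.Agent.Common.E4Level

set_option autoImplicit false
noncomputable section
open UpperHalfPlane Function Complex ModularForm
open scoped Manifold MatrixGroups
open Fermat.Agent.S24 Fermat.Agent.Common

namespace Fermat.Agent.S28

local notation "Δ" => ModularForm.discriminant

theorem discriminant_mem_HolPer (N : ℕ) : (Δ : ℍ → ℂ) ∈ HolPer N := by
  refine ⟨CuspForm.discriminant.holo', ?_, ?_⟩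
  · have h1 : Periodic ((Δ : ℍ → ℂ) ∘ ofComplex) (1 : ℝ) := by
      have := SlashInvariantFormClass.periodic_comp_ofComplex (h := 1) CuspForm.discriminant
        one_mem_strictPeriods_SL
      simpa using this
    have := h1.nat_mul N
    simpa using this
  · exact (discriminant_isZeroAtImInfty).isBoundedAtImInfty

/-- Functions holomorphic on `ℍ`, `N`-periodic and meromorphic at `i∞`. -/
def MF (N : ℕ) : Subalgebra ℂ (ℍ → ℂ) where
  carrier := {f | ∃ M : ℕ, f * Δ ^ M ∈ HolPer N}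
  mul_mem' := by
    rintro f g ⟨M, hf⟩ ⟨M', hg⟩
    refine ⟨M + M', ?_⟩
    have : f * g * Δ ^ (M + M') = (f * Δ ^ M) * (g * Δ ^ M') := by rw [pow_add]; ring
    rw [this]; exact mul_mem hf hg
  add_mem' := by
    rintro f g ⟨M, hf⟩ ⟨M', hg⟩
    refine ⟨M + M', ?_⟩
    have : (f + g) * Δ ^ (M + M') = (f * Δ ^ M) * Δ ^ M' + (g * Δ ^ M') * Δ ^ M := by
      rw [pow_add]; ring
    rw [this]
    exact add_mem (mul_mem hf (pow_mem (discriminant_mem_HolPer N) _))
      (mul_mem hg (pow_mem (discriminant_mem_HolPer N) _))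
  algebraMap_mem' c := ⟨0, by simpa using (HolPer N).algebraMap_mem c⟩

theorem mem_MF {N : ℕ} {f : ℍ → ℂ} : f ∈ MF N ↔ ∃ M : ℕ, f * Δ ^ M ∈ HolPer N := Iff.rfl

theorem HolPer_le_MF (N : ℕ) : HolPer N ≤ MF N := fun f hf => ⟨0, by simpa using hf⟩

/-- The point `(a τ + b) / e`. -/
def tri (a e : ℕ) [NeZero a] [NeZero e] (b : ℤ) (τ : ℍ) : ℍ :=
  upperTriangularGL a b e (mul_ne_zero (by exact_mod_cast NeZero.ne a)
    (by exact_mod_cast NeZero.ne e)) • τ

/-- The analytic `j`-function. -/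
def Jfun (τ : ℍ) : ℂ := E₄ τ ^ 3 / Δ τ

end Fermat.Agent.S28
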