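import Fermat.Agent.S28.Analytic.MF
import Fermat.Agent.S24.Hermite

set_option autoImplicit false
noncomputable section
open UpperHalfPlane Function Complex ModularForm CongruenceSubgroup Polynomial ModularCurve
open scoped Manifold MatrixGroups
open Fermat.Agent.S24 Fermat.Agent.Common

namespace Fermat.Agent.S28

local notation "Δ" => ModularForm.discriminant
local notation "𝕢" => Function.Periodic.qParam

/-- nonzero Laurent series which, together with its inverse, has coefficients in `NInt N` -/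
def IsNUnit (N : ℕ) (x : LaurentSeries ℂ) : Prop :=
  x ≠ 0 ∧ (∀ k, x.coeff k ∈ NInt N) ∧ ∀ k, (x⁻¹).coeff k ∈ NInt N

section NUnit

variable (N : ℕ) [NeZero N]

omit [NeZero N] in
theorem coeff_mul_mem {S : Subring ℂ} {x y : LaurentSeries ℂ} (hx : ∀ k, x.coeff k ∈ S)
    (hy : ∀ k, y.coeff k ∈ S) (k : ℤ) : (x * y).coeff k ∈ S := by
  rw [HahnSeries.coeff_mul]
  exact Subring.sum_mem _ fun ij _ => S.mul_mem (hx _) (hy _)

theorem IsNUnit.mul {x y : LaurentSeries ℂ} (hx : IsNUnit N x) (hy : IsNUnit N y) :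
    IsNUnit N (x * y) := by
  refine ⟨mul_ne_zero hx.1 hy.1, coeff_mul_mem hx.2.1 hy.2.1, ?_⟩
  rw [mul_inv]
  exact coeff_mul_mem hx.2.2 hy.2.2

theorem IsNUnit.inv {x : LaurentSeries ℂ} (hx : IsNUnit N x) : IsNUnit N x⁻¹ :=
  ⟨inv_ne_zero hx.1, hx.2.2, by rw [inv_inv]; exact hx.2.1⟩

theorem IsNUnit.one : IsNUnit N 1 := by
  have h : ∀ k : ℤ, (1 : LaurentSeries ℂ).coeff k ∈ NInt N := by
    intro k
    rw [HahnSeries.coeff_one]
    split_ifs
    · exact (NInt N).one_mem
    · exact (NInt N).zero_mem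
  exact ⟨one_ne_zero, h, by rw [inv_one]; exact h⟩

theorem IsNUnit.pow {x : LaurentSeries ℂ} (hx : IsNUnit N x) (r : ℕ) : IsNUnit N (x ^ r) := by
  induction r with
  | zero => simpa using IsNUnit.one N
  | succ n ih => rw [pow_succ]; exact ih.mul N hx

theorem IsNUnit.zpow {x : LaurentSeries ℂ} (hx : IsNUnit N x) (r : ℤ) : IsNUnit N (x ^ r) := by
  cases r with
  | ofNat n => simpa using hx.pow N n
  | negSucc n => rw [zpow_negSucc]; exact (hx.pow N _).inv N

theorem IsNUnit.prod {ι : Type*} (s : Finset ι) (x : ι → LaurentSeries ℂ)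
    (h : ∀ i ∈ s, IsNUnit N (x i)) : IsNUnit N (∏ i ∈ s, x i) := by
  classical
  induction s using Finset.induction_on with
  | empty => simpa using IsNUnit.one N
  | insert i s hi ih =>
    rw [Finset.prod_insert hi]
    exact (h i (Finset.mem_insert_self _ _)).mul N
      (ih fun j hj => h j (Finset.mem_insert_of_mem hj))

theorem natCast_mem_NInt (d : ℕ) : (d : ℂ) ∈ NInt N := natCast_mem _ d

theorem inv_natCast_mem_NInt {d : ℕ} (hd : d ∣ N) : ((d : ℂ))⁻¹ ∈ NInt N := by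
  have hN := NeZero.ne N
  obtain ⟨c, rfl⟩ := hd
  refine ⟨1, ?_⟩
  have hd0 : (d : ℂ) ≠ 0 := by
    have : d ≠ 0 := left_ne_zero_of_mul hN
    exact_mod_cast this
  have : ((d * c : ℕ) : ℂ) ^ 1 * ((d : ℂ))⁻¹ = ((c : ℤ) : ℂ) := by
    push_cast
    field_simp
  rw [this]
  exact isIntegral_algebraMap (R := ℤ) (A := ℂ) (x := (c : ℤ))

theorem isNUnit_C {z : ℂ} (hz0 : z ≠ 0) (hz : z ∈ NInt N) (hz' : z⁻¹ ∈ NInt N) :
    IsNUnit N (HahnSeries.C z) := by
  have key : ∀ w : ℂ, w ∈ NInt N → ∀ k : ℤ, (HahnSeries.C w : LaurentSeries ℂ).coeff k ∈ NInt N := by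
    intro w hw k
    rw [HahnSeries.C_apply, HahnSeries.coeff_single]
    split_ifs
    · exact hw
    · exact (NInt N).zero_mem
  refine ⟨by simpa using hz0, key z hz, ?_⟩
  rw [← map_inv₀]
  exact key _ hz'

theorem isNUnit_C_natCast {d : ℕ} (hd : d ∣ N) : IsNUnit N (HahnSeries.C (d : ℂ)) := by
  have hd0 : (d : ℂ) ≠ 0 := by
    have : d ≠ 0 := fun h => NeZero.ne N (by rw [h] at hd; exact Nat.eq_zero_of_zero_dvd hd)
    exact_mod_cast this
  exact isNUnit_C N hd0 (natCast_mem_NInt N d) (inv_natCast_mem_NInt N hd)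

/-- Lift a Laurent series with coefficients in a subring. -/
def liftLS (S : Subring ℂ) (x : LaurentSeries ℂ) (hx : ∀ k, x.coeff k ∈ S) : LaurentSeries S :=
  ⟨fun k => ⟨x.coeff k, hx k⟩, x.isPWO_support.mono (by
    intro k hk
    simp only [Function.mem_support, ne_eq] at hk ⊢
    intro h0
    exact hk (Subtype.ext h0))⟩

theorem coeffMap_liftLS (S : Subring ℂ) (x : LaurentSeries ℂ) (hx : ∀ k, x.coeff k ∈ S) :
    coeffMap S.subtype (liftLS S x hx) = x := by
  ext k
  rfl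

/-- A Laurent series with coefficients in `NInt N` whose leading coefficient is a unit. -/
theorem isNUnit_of_leadingCoeff {x : LaurentSeries ℂ} (hx0 : x ≠ 0)
    (hx : ∀ k, x.coeff k ∈ NInt N) (hl : (x.coeff x.order)⁻¹ ∈ NInt N) : IsNUnit N x := by
  refine ⟨hx0, hx, ?_⟩
  set y := liftLS (NInt N) x hx with hy
  have hxy : coeffMap (NInt N).subtype y = x := coeffMap_liftLS _ _ _
  have hy0 : y ≠ 0 := by
    intro h
    rw [h, map_zero] at hxy
    exact hx0 hxy.symm
  have hord : y.order = x.order := by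
    apply le_antisymm
    · apply HahnSeries.order_le_of_coeff_ne_zero
      intro h
      have : x.coeff x.order = 0 := congrArg Subtype.val h
      exact hx0 (HahnSeries.coeff_order_eq_zero.mp this)
    · apply HahnSeries.order_le_of_coeff_ne_zero
      intro h
      have h2 : y.coeff y.order = 0 := Subtype.ext h
      exact hy0 (HahnSeries.coeff_order_eq_zero.mp h2)
  have hunit : IsUnit y := by
    rw [HahnSeries.isUnit_iff, HahnSeries.leadingCoeff_eq, hord]
    refine IsUnit.of_mul_eq_one ⟨_, hl⟩ ?_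
    apply Subtype.ext
    show x.coeff x.order * (x.coeff x.order)⁻¹ = 1
    exact mul_inv_cancel₀ (fun h => hx0 (HahnSeries.coeff_order_eq_zero.mp h))
  obtain ⟨y', hy'⟩ := hunit.exists_right_inv
  have h1 : x * coeffMap (NInt N).subtype y' = 1 := by
    rw [← hxy, ← map_mul, hy', map_one]
  have h2 : x⁻¹ = coeffMap (NInt N).subtype y' := (eq_inv_of_mul_eq_one_right h1).symm
  intro k
  rw [h2]
  exact (y'.coeff k).2

end NUnit

section tri

variable (a e : ℕ) [NeZero a] [NeZero e] (b : ℤ)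

theorem tri_pos : (0 : ℝ) < (a : ℝ) * (e : ℝ) :=
  mul_pos (by exact_mod_cast Nat.pos_of_ne_zero (NeZero.ne a))
    (by exact_mod_cast Nat.pos_of_ne_zero (NeZero.ne e))

theorem coe_tri (τ : ℍ) : ((tri a e b τ : ℍ) : ℂ) = ((a : ℂ) * τ + b) / e := by
  have := coe_upperTriangularGL_smul (b := (b : ℝ)) (tri_pos a e) τ
  simpa [tri] using this

theorem im_tri (τ : ℍ) : (tri a e b τ).im = (a : ℝ) / e * τ.im :=
  im_upperTriangularGL_smul (b := (b : ℝ)) (tri_pos a e) τ

theorem tendsto_tri : Filter.Tendsto (tri a e b) atImInfty atImInfty :=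
  tendsto_upperTriangularGL_smul (b := (b : ℝ)) (tri_pos a e)

theorem mdiff_tri : MDiff (tri a e b) :=
  mdifferentiable_smul (by rw [det_upperTriangularGL]; exact tri_pos a e)

end tri

section AN2
variable (N : ℕ) [NeZero N] (a e : ℕ) [NeZero a] [NeZero e] (b : ℤ)

theorem periodic_comp_tri {G : ℍ → ℂ} (hG : Periodic (G ∘ ofComplex) ((1 : ℕ) : ℝ)) (h : e ∣ a * N) :
    Periodic ((G ∘ tri a e b) ∘ ofComplex) (N : ℝ) := by
  intro z
  obtain ⟨k, hk⟩ := h
  have he : (e : ℂ) ≠ 0 := by exact_mod_cast NeZero.ne e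
  by_cases hz : 0 < z.im
  · have hz' : 0 < (z + ((N : ℝ) : ℂ)).im := by simpa using hz
    simp only [comp_apply, ofComplex_apply_of_im_pos hz, ofComplex_apply_of_im_pos hz']
    have h1 : ∀ w : ℍ, G w = (G ∘ ofComplex) (w : ℂ) := fun w => by
      rw [comp_apply, ofComplex_apply]
    rw [h1, h1, coe_tri, coe_tri]
    have hper := hG.nat_mul k
    have hkc : (a : ℂ) * N = e * k := by exact_mod_cast hk
    have : ((a : ℂ) * ((⟨z + ((N : ℝ) : ℂ), hz'⟩ : ℍ) : ℂ) + b) / e =
        ((a : ℂ) * ((⟨z, hz⟩ : ℍ) : ℂ) + b) / e + (k : ℂ) * (((1 : ℕ) : ℝ) : ℂ) := by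
      field_simp
      push_cast
      linear_combination hkc
    rw [this]
    exact hper _
  · have hz' : (z + ((N : ℝ) : ℂ)).im ≤ 0 := by simpa using not_lt.mp hz
    simp only [comp_apply]
    rw [ofComplex_apply_eq_of_im_nonpos hz' (not_lt.mp hz)]

theorem comp_tri_mem_HolPer {G : ℍ → ℂ} (hG : G ∈ HolPer 1) (h : e ∣ a * N) :
    G ∘ tri a e b ∈ HolPer N := by
  obtain ⟨h1, h2, h3⟩ := hG
  refine ⟨h1.comp (mdiff_tri a e b), periodic_comp_tri N a e b h2 h, ?_⟩
  exact h3.comp_tendsto (tendsto_tri a e b)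

theorem qParam_tri (h : e ∣ a * N) (τ : ℍ) :
    𝕢 1 ((tri a e b τ : ℍ) : ℂ) =
      Complex.exp (2 * Real.pi * Complex.I * b / e) * 𝕢 (N : ℝ) (τ : ℂ) ^ (a * N / e) := by
  obtain ⟨k, hk⟩ := h
  have hepos : 0 < e := Nat.pos_of_ne_zero (NeZero.ne e)
  have he : (e : ℂ) ≠ 0 := by exact_mod_cast NeZero.ne e
  have hN : (N : ℂ) ≠ 0 := by exact_mod_cast NeZero.ne N
  rw [hk, Nat.mul_div_cancel_left _ hepos, coe_tri, Function.Periodic.qParam,
    Function.Periodic.qParam, ← Complex.exp_nat_mul, ← Complex.exp_add]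
  congr 1
  have hkc : (a : ℂ) * N = e * k := by exact_mod_cast hk
  push_cast
  field_simp
  linear_combination (τ : ℂ) * hkc

theorem div_pos_of_dvd (h : e ∣ a * N) : 0 < a * N / e := by
  obtain ⟨k, hk⟩ := h
  have hepos : 0 < e := Nat.pos_of_ne_zero (NeZero.ne e)
  rw [hk, Nat.mul_div_cancel_left _ hepos]
  rcases Nat.eq_zero_or_pos k with rfl | hk0
  · exact absurd hk (by simp [NeZero.ne a, NeZero.ne N])
  · exact hk0

theorem hasSum_comp_tri {G : ℍ → ℂ} (hG : G ∈ HolPer 1) (h : e ∣ a * N) (τ : ℍ) :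
    HasSum (fun m : ℕ => (if (a * N / e) ∣ m then
        Complex.exp (2 * Real.pi * Complex.I * b / e) ^ (m / (a * N / e)) *
          (qExpansion 1 G).coeff (m / (a * N / e))
      else 0) • 𝕢 (N : ℝ) (τ : ℂ) ^ m) ((G ∘ tri a e b) τ) := by
  have hkpos := div_pos_of_dvd N a e h
  have hq := qParam_tri N a e b h τ
  generalize a * N / e = k at hkpos hq ⊢
  obtain ⟨h1, h2, h3⟩ := hG
  have hs := hasSum_qExpansion (h := 1) one_pos (by simpa using h2) h1 h3 (tri a e b τ)
  have hinj : Function.Injective (fun n : ℕ => k * n) := fun x y hxy =>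
    Nat.eq_of_mul_eq_mul_left hkpos hxy
  refine (hinj.hasSum_iff ?_).mp ?_
  · intro x hx
    have : ¬ k ∣ x := fun ⟨n, hn⟩ => hx ⟨n, hn.symm⟩
    simp [this]
  · convert hs using 2 with n
    simp only [Function.comp_apply, dvd_mul_right, if_true, Nat.mul_div_cancel_left _ hkpos,
      smul_eq_mul]
    · rw [hq, mul_pow, ← pow_mul]
      ring
    · rfl

theorem qExpansion_coeff_of_hasSum {F : ℍ → ℂ} (hF : F ∈ HolPer N) (c : ℕ → ℂ)
    (hs : ∀ τ : ℍ, HasSum (fun m : ℕ => c m • 𝕢 (N : ℝ) (τ : ℂ) ^ m) (F τ)) (m : ℕ) :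
    (qExpansion (N : ℝ) F).coeff m = c m := by
  let _ : FunLike (ℍ → ℂ) ℍ ℂ := ⟨fun f => f, fun _ _ h => h⟩
  exact (qExpansion_coeff_unique (F := ℍ → ℂ) F (HolPer.pos N)
    (analyticAt_cuspFunction_zero (HolPer.pos N) hF.2.1 hF.1 hF.2.2) hs m).symm

theorem qExpansion_comp_tri {G : ℍ → ℂ} (hG : G ∈ HolPer 1) (h : e ∣ a * N) (m : ℕ) :
    (qExpansion (N : ℝ) (G ∘ tri a e b)).coeff m =
      if (a * N / e) ∣ m then
        Complex.exp (2 * Real.pi * Complex.I * b / e) ^ (m / (a * N / e)) *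
          (qExpansion 1 G).coeff (m / (a * N / e))
      else 0 :=
  qExpansion_coeff_of_hasSum N (comp_tri_mem_HolPer N a e b hG h) _
    (hasSum_comp_tri N a e b hG h) m

theorem mdiff_inv {f : ℍ → ℂ} (hf : MDiff f) (h0 : ∀ τ, f τ ≠ 0) : MDiff (fun τ => (f τ)⁻¹) := by
  rw [UpperHalfPlane.mdifferentiable_iff] at hf ⊢
  exact hf.inv fun z _ => h0 _

theorem isBoundedAtImInfty_inv_discriminant_comp_tri :
    IsBoundedAtImInfty ((fun τ => (Δ (tri a e b τ))⁻¹) * Δ ^ a) := by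
  have h1 : (fun τ : ℍ => Real.exp (-2 * Real.pi * (tri a e b τ).im)) =O[atImInfty]
      (fun τ => Δ (tri a e b τ)) :=
    exp_isBigO_discriminant.comp_tendsto (tendsto_tri a e b)
  have h2 : (fun τ => (Δ (tri a e b τ))⁻¹) =O[atImInfty]
      (fun τ : ℍ => (Real.exp (-2 * Real.pi * (tri a e b τ).im))⁻¹) :=
    h1.inv_rev (Filter.Eventually.of_forall fun τ h => absurd h (Real.exp_pos _).ne')
  have h3 : (Δ : ℍ → ℂ) =O[atImInfty] fun τ : ℍ => Real.exp (-2 * Real.pi * τ.im / 1) :=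
    CuspFormClass.exp_decay_atImInfty (h := 1) CuspForm.discriminant one_pos
      one_mem_strictPeriods_SL
  have h4 := h2.mul (h3.pow a)
  refine h4.trans (Asymptotics.IsBigO.of_bound 1 (Filter.Eventually.of_forall fun τ => ?_))
  rw [im_tri, ← Real.exp_neg, ← Real.exp_nat_mul, ← Real.exp_add]
  simp only [Pi.one_apply, norm_one, mul_one, Real.norm_eq_abs, Real.abs_exp]
  rw [Real.exp_le_one_iff]
  have he : (1 : ℝ) ≤ e := by exact_mod_cast Nat.pos_of_ne_zero (NeZero.ne e)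
  have ha : (0 : ℝ) < a := by exact_mod_cast Nat.pos_of_ne_zero (NeZero.ne a)
  have hy := τ.im_pos
  have h5 : (a : ℝ) / e ≤ a := div_le_self ha.le he
  have h6 : (a : ℝ) / e * τ.im ≤ a * τ.im := mul_le_mul_of_nonneg_right h5 hy.le
  have hpi := Real.pi_pos
  nlinarith [mul_le_mul_of_nonneg_left h6 hpi.le]

theorem inv_discriminant_comp_tri_mem_MF (h : e ∣ a * N) :
    (fun τ => (Δ (tri a e b τ))⁻¹) ∈ MF N := by
  have hmem := comp_tri_mem_HolPer N a e b (discriminant_mem_HolPer 1) h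
  have hΔ := discriminant_mem_HolPer N
  refine ⟨a, (mdiff_inv hmem.1 fun τ => discriminant_ne_zero _).mul (hΔ.1.pow a), ?_,
    isBoundedAtImInfty_inv_discriminant_comp_tri a e b⟩
  have hp1 : Periodic ((fun τ => (Δ (tri a e b τ))⁻¹) ∘ ofComplex) (N : ℝ) := by
    intro z
    have := hmem.2.1 z
    simp only [comp_apply] at this ⊢
    rw [this]
  have hp2 : Periodic ((Δ ^ a : ℍ → ℂ) ∘ ofComplex) (N : ℝ) := by
    intro z
    have := hΔ.2.1 z
    simp only [comp_apply, Pi.pow_apply] at this ⊢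
    rw [this]
  exact hp1.mul hp2

theorem mem_NInt_of_isIntegral {z : ℂ} (hz : IsIntegral ℤ z) : z ∈ NInt N :=
  ⟨0, by simpa using hz⟩

theorem exp_pow_eq_one : Complex.exp (2 * Real.pi * Complex.I * b / e) ^ e = 1 := by
  have he : (e : ℂ) ≠ 0 := by exact_mod_cast NeZero.ne e
  rw [← Complex.exp_nat_mul, Complex.exp_eq_one_iff]
  refine ⟨b, ?_⟩
  field_simp

theorem isIntegral_exp : IsIntegral ℤ (Complex.exp (2 * Real.pi * Complex.I * b / e)) :=
  IsIntegral.of_pow (Nat.pos_of_ne_zero (NeZero.ne e)) (by rw [exp_pow_eq_one]; exact isIntegral_one)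

theorem isIntegral_exp_inv : IsIntegral ℤ (Complex.exp (2 * Real.pi * Complex.I * b / e))⁻¹ :=
  IsIntegral.of_pow (Nat.pos_of_ne_zero (NeZero.ne e))
    (by rw [inv_pow, exp_pow_eq_one, inv_one]; exact isIntegral_one)

theorem discriminant_coeff_int (n : ℕ) : ∃ z : ℤ, (qExpansion 1 Δ).coeff n = z := by
  rw [qExpansion_discriminant]
  have : (PowerSeries.X * dedekindEtaUnit.map (Int.castRingHom ℂ) : PowerSeries ℂ) =
      (PowerSeries.X * dedekindEtaUnit).map (Int.castRingHom ℂ) := by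
    rw [map_mul, PowerSeries.map_X]
  rw [this, PowerSeries.coeff_map]
  exact ⟨_, rfl⟩

theorem discriminant_coeff_zero : (qExpansion 1 Δ).coeff 0 = 0 := by
  rw [qExpansion_discriminant]
  simp

theorem coeff_lau_discriminant_comp_tri (h : e ∣ a * N) (j : ℤ) :
    (lau N ⟨Δ ∘ tri a e b,
      HolPer_le_MF N (comp_tri_mem_HolPer N a e b (discriminant_mem_HolPer 1) h)⟩).coeff j =
      if 0 ≤ j ∧ ((a * N / e : ℕ) : ℤ) ∣ j then
        Complex.exp (2 * Real.pi * Complex.I * b / e) ^ (j.toNat / (a * N / e)) *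
          (qExpansion 1 Δ).coeff (j.toNat / (a * N / e))
      else 0 := by
  rw [lau_of_mem_HolPer N (comp_tri_mem_HolPer N a e b (discriminant_mem_HolPer 1) h)]
  rcases lt_or_ge j 0 with hj | hj
  · rw [ofPowerSeries_coeff_of_neg _ hj, if_neg (fun h => absurd h.1 (not_le.mpr hj))]
  · lift j to ℕ using hj
    rw [HahnSeries.ofPowerSeries_apply_coeff,
      qExpansion_comp_tri N a e b (discriminant_mem_HolPer 1) h]
    simp only [Int.natCast_nonneg, true_and, Int.natCast_dvd_natCast, Int.toNat_natCast]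

theorem lau_discriminant_comp_tri_ne_zero_and_order (h : e ∣ a * N) :
    (lau N ⟨Δ ∘ tri a e b,
      HolPer_le_MF N (comp_tri_mem_HolPer N a e b (discriminant_mem_HolPer 1) h)⟩) ≠ 0 ∧
    (lau N ⟨Δ ∘ tri a e b,
      HolPer_le_MF N (comp_tri_mem_HolPer N a e b (discriminant_mem_HolPer 1) h)⟩).order
      = ((a * N / e : ℕ) : ℤ) ∧
    (lau N ⟨Δ ∘ tri a e b,
      HolPer_le_MF N (comp_tri_mem_HolPer N a e b (discriminant_mem_HolPer 1) h)⟩).coeff
        ((a * N / e : ℕ) : ℤ) = Complex.exp (2 * Real.pi * Complex.I * b / e) := by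
  have hc := coeff_lau_discriminant_comp_tri N a e b h
  have hkpos := div_pos_of_dvd N a e h
  generalize (lau N ⟨Δ ∘ tri a e b,
      HolPer_le_MF N (comp_tri_mem_HolPer N a e b (discriminant_mem_HolPer 1) h)⟩) = x at hc ⊢
  generalize a * N / e = k at hc hkpos ⊢
  have hk : x.coeff (k : ℤ) = Complex.exp (2 * Real.pi * Complex.I * b / e) := by
    rw [hc, if_pos ⟨Int.natCast_nonneg _, dvd_rfl⟩, Int.toNat_natCast, Nat.div_self hkpos,
      discriminant_qExpansion_coeff_one]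
    simp
  have hx0 : x ≠ 0 := by
    intro h0
    rw [h0] at hk
    exact Complex.exp_ne_zero _ hk.symm
  refine ⟨hx0, le_antisymm ?_ ?_, hk⟩
  · apply HahnSeries.order_le_of_coeff_ne_zero
    rw [hk]
    exact Complex.exp_ne_zero _
  · rw [HahnSeries.le_order_iff_forall hx0]
    intro j hj
    rw [hc]
    split_ifs with hcond
    · obtain ⟨h0, h1⟩ := hcond
      have hj0 : j = 0 := by
        rcases h0.eq_or_lt with h0 | h0
        · exact h0.symm
        · exact absurd (Int.le_of_dvd h0 h1) (not_le.mpr hj)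
      subst hj0
      simp [discriminant_coeff_zero]
    · rfl

theorem order_lau_discriminant_comp_tri (h : e ∣ a * N) :
    (lau N ⟨Δ ∘ tri a e b,
      HolPer_le_MF N (comp_tri_mem_HolPer N a e b (discriminant_mem_HolPer 1) h)⟩).order
      = ((a * N / e : ℕ) : ℤ) :=
  (lau_discriminant_comp_tri_ne_zero_and_order N a e b h).2.1

theorem isNUnit_lau_discriminant_comp_tri (h : e ∣ a * N) (he : e ∣ N) :
    IsNUnit N (lau N ⟨Δ ∘ tri a e b,
      HolPer_le_MF N (comp_tri_mem_HolPer N a e b (discriminant_mem_HolPer 1) h)⟩) := by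
  obtain ⟨h0, h1, h2⟩ := lau_discriminant_comp_tri_ne_zero_and_order N a e b h
  refine isNUnit_of_leadingCoeff N h0 (fun j => ?_) ?_
  · rw [coeff_lau_discriminant_comp_tri N a e b h]
    split_ifs
    · obtain ⟨z, hz⟩ := discriminant_coeff_int (j.toNat / (a * N / e))
      rw [hz]
      exact (NInt N).mul_mem (pow_mem (mem_NInt_of_isIntegral N (isIntegral_exp e b)) _)
        (intCast_mem _ z)
    · exact (NInt N).zero_mem
  · rw [h1, h2]
    exact mem_NInt_of_isIntegral N (isIntegral_exp_inv e b)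

end AN2
end Fermat.Agent.S28
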