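import Fermat.Agent.S28.Analytic.MF
import Fermat.Agent.S24.Hermite

/-!
# `G((aτ+b)/e)` is holomorphic, `N`-periodic and bounded; `1/Δ((aτ+b)/e)` is in `MF N`
(S28, parts (a) and (c) of AN2)
-/

set_option autoImplicit false
noncomputable section
open UpperHalfPlane Function Complex ModularForm CongruenceSubgroup Polynomial ModularCurve
open Filter Topology Asymptotics
open scoped Manifold MatrixGroups
open Fermat.Agent.S24 Fermat.Agent.Common

namespace Fermat.Agent.S28.TriInv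

local notation "Δ" => ModularForm.discriminant

variable (a e : ℕ) [NeZero a] [NeZero e] (b : ℤ)

theorem pos_a : (0 : ℝ) < a := by exact_mod_cast Nat.pos_of_ne_zero (NeZero.ne a)
theorem pos_e : (0 : ℝ) < e := by exact_mod_cast Nat.pos_of_ne_zero (NeZero.ne e)

theorem coe_tri (τ : ℍ) : ((tri a e b τ : ℍ) : ℂ) = ((a : ℂ) * τ + b) / e := by
  have h := coe_upperTriangularGL_smul (a := (a : ℝ)) (b := (b : ℝ)) (e := (e : ℝ))
    (mul_pos (pos_a a) (pos_e e)) τ
  rw [tri, h]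
  simp

theorem im_tri (τ : ℍ) : (tri a e b τ).im = (a : ℝ) / e * τ.im :=
  im_upperTriangularGL_smul (a := (a : ℝ)) (b := (b : ℝ)) (e := (e : ℝ))
    (mul_pos (pos_a a) (pos_e e)) τ

theorem tendsto_tri : Tendsto (tri a e b) atImInfty atImInfty :=
  tendsto_upperTriangularGL_smul (a := (a : ℝ)) (b := (b : ℝ)) (e := (e : ℝ))
    (mul_pos (pos_a a) (pos_e e))

theorem im_affine_pos {w : ℂ} (hw : 0 < w.im) : 0 < ((((a : ℂ) * w + b) / e : ℂ)).im := by
  have : ((((a : ℂ) * w + b) / e : ℂ)).im = (a : ℝ) / e * w.im := by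
    have he : (e : ℂ) ≠ 0 := by exact_mod_cast NeZero.ne e
    have : (((a : ℂ) * w + b) / e) = (((a / e : ℝ) : ℂ) * w + ((b / e : ℝ) : ℂ)) := by
      push_cast
      field_simp
    rw [this]
    simp
  rw [this]
  exact mul_pos (div_pos (pos_a a) (pos_e e)) hw

theorem tri_eq_ofComplex (τ : ℍ) : tri a e b τ = ofComplex (((a : ℂ) * τ + b) / e) := by
  rw [← coe_tri, ofComplex_apply]

theorem mdiff_comp_tri {G : ℍ → ℂ} (hG : MDiff G) : MDiff (G ∘ tri a e b) := by
  intro τ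
  rw [UpperHalfPlane.mdifferentiableAt_iff]
  have h1 : DifferentiableAt ℂ (G ∘ ofComplex) (((a : ℂ) * τ + b) / e) := by
    have := UpperHalfPlane.mdifferentiableAt_iff.mp (hG (tri a e b τ))
    rwa [coe_tri] at this
  have h2 : DifferentiableAt ℂ (fun w : ℂ => ((a : ℂ) * w + b) / e) τ := by fun_prop
  have h3 : ((G ∘ tri a e b) ∘ ofComplex) =ᶠ[𝓝 (τ : ℂ)]
      (G ∘ ofComplex) ∘ (fun w : ℂ => ((a : ℂ) * w + b) / e) := by
    filter_upwards [isOpen_upperHalfPlaneSet.mem_nhds τ.im_pos] with w hw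
    simp only [comp_apply, ofComplex_apply_of_im_pos hw, tri_eq_ofComplex]
  exact (DifferentiableAt.comp (τ : ℂ) h1 h2).congr_of_eventuallyEq h3

theorem periodic_comp_tri (N : ℕ) {G : ℍ → ℂ} (hG : Periodic (G ∘ ofComplex) (1 : ℝ))
    (h : e ∣ a * N) : Periodic ((G ∘ tri a e b) ∘ ofComplex) (N : ℝ) := by
  obtain ⟨k, hk⟩ := h
  intro w
  by_cases hw : 0 < im w
  · have hw' : 0 < im (w + (N : ℝ)) := by simpa using hw
    simp only [comp_apply, ofComplex_apply_of_im_pos hw', ofComplex_apply_of_im_pos hw,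
      tri_eq_ofComplex]
    have := hG.nat_mul k (((a : ℂ) * w + b) / e)
    simp only [comp_apply] at this
    rw [← this]
    congr 2
    have he : (e : ℂ) ≠ 0 := by exact_mod_cast NeZero.ne e
    have hk' : (a : ℂ) * N = e * k := by exact_mod_cast hk
    push_cast
    field_simp
    linear_combination hk'
  · have hw' : im (w + ((N : ℝ) : ℂ)) ≤ 0 := by simpa using not_lt.mp hw
    simp only [comp_apply, ofComplex_apply_of_im_nonpos hw',
      ofComplex_apply_of_im_nonpos (not_lt.mp hw)]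

theorem comp_tri_mem_HolPer (N : ℕ) {G : ℍ → ℂ} (hG : G ∈ HolPer 1) (h : e ∣ a * N) :
    G ∘ tri a e b ∈ HolPer N := by
  obtain ⟨h1, h2, h3⟩ := hG
  refine ⟨mdiff_comp_tri a e b h1, periodic_comp_tri a e b N (by simpa using h2) h,
    h3.comp_tendsto (tendsto_tri a e b)⟩

theorem isBoundedAtImInfty_inv_mul_pow :
    IsBoundedAtImInfty ((fun τ => (Δ (tri a e b τ))⁻¹) * Δ ^ a) := by
  have h1 : (Δ : ℍ → ℂ) =O[atImInfty] (fun τ : ℍ => Real.exp (-2 * Real.pi * τ.im / 1)) :=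
    CuspFormClass.exp_decay_atImInfty (h := 1) CuspForm.discriminant one_pos
      one_mem_strictPeriods_SL
  have h1' := h1.pow a
  have h2 : (fun τ : ℍ => Real.exp (-2 * Real.pi * (tri a e b τ).im)) =O[atImInfty]
      (fun τ => Δ (tri a e b τ)) := exp_isBigO_discriminant.comp_tendsto (tendsto_tri a e b)
  have h2' : (fun τ => (Δ (tri a e b τ))⁻¹) =O[atImInfty]
      (fun τ : ℍ => (Real.exp (-2 * Real.pi * (tri a e b τ).im))⁻¹) :=
    h2.inv_rev (Eventually.of_forall fun τ h => absurd h (Real.exp_pos _).ne')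
  have h3 := h2'.mul h1'
  refine h3.trans (IsBigO.of_bound 1 (Eventually.of_forall fun τ => ?_))
  simp only [Pi.one_apply, norm_one, mul_one]
  rw [Real.norm_of_nonneg (by positivity), ← Real.exp_neg, ← Real.exp_nat_mul, ← Real.exp_add,
    Real.exp_le_one_iff, im_tri]
  have hy : 0 < τ.im := τ.im_pos
  have he1 : (1 : ℝ) ≤ e := by exact_mod_cast Nat.pos_of_ne_zero (NeZero.ne e)
  have hae : (a : ℝ) / e ≤ a := div_le_self (pos_a a).le he1
  have : -(-2 * Real.pi * ((a : ℝ) / e * τ.im)) + (a : ℝ) * (-2 * Real.pi * τ.im / 1) =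
      -(2 * Real.pi * τ.im * ((a : ℝ) - a / e)) := by ring
  rw [this]
  have hpi := Real.pi_pos
  have : 0 ≤ 2 * Real.pi * τ.im * ((a : ℝ) - a / e) := by
    apply mul_nonneg (by positivity) (by linarith)
  linarith

theorem inv_mul_pow_mem_HolPer (N : ℕ) (h : e ∣ a * N) :
    (fun τ => (Δ (tri a e b τ))⁻¹) * Δ ^ a ∈ HolPer N := by
  have hmem := comp_tri_mem_HolPer a e b N discriminant_mem_HolPer_one h
  have hD := discriminant_mem_HolPer N
  refine ⟨?_, ?_, isBoundedAtImInfty_inv_mul_pow a e b⟩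
  · have h1 : MDiff ((Δ ^ a) / (Δ ∘ tri a e b)) :=
      (hD.1.pow a).div hmem.1 (fun τ => discriminant_ne_zero _)
    have h2 : (Δ ^ a) / (Δ ∘ tri a e b) = (fun τ => (Δ (tri a e b τ))⁻¹) * Δ ^ a := by
      funext τ
      simp [div_eq_mul_inv, mul_comm]
    rwa [h2] at h1
  · intro w
    have h1 := hmem.2.1 w
    have h2 := hD.2.1 w
    simp only [comp_apply, Pi.mul_apply, Pi.pow_apply] at h1 h2 ⊢
    rw [h1, h2]

theorem inv_discriminant_comp_tri_mem_MF (N : ℕ) (h : e ∣ a * N) :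
    (fun τ => (Δ (tri a e b τ))⁻¹) ∈ MF N :=
  ⟨a, inv_mul_pow_mem_HolPer a e b N h⟩

end Fermat.Agent.S28.TriInv
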