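import Fermat.Agent.S28.Analytic.MFDefs
import Fermat.Agent.S24.Hermite
import Fermat.Agent.Common.JPoly

/-!
# Transformation of `Δ(dτ)/Δ(τ)` under `SL(2,ℤ)` (S28, AN5 part B)
-/

set_option autoImplicit false
noncomputable section
open UpperHalfPlane Function Complex ModularForm CongruenceSubgroup Polynomial ModularCurve
open Matrix.SpecialLinearGroup
open scoped Manifold MatrixGroups
open Fermat.Agent.S24 Fermat.Agent.Common

namespace Fermat.Agent.S28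

local notation "Δ" => ModularForm.discriminant

theorem discriminant_slash_mapGL (γ : SL(2, ℤ)) : (Δ : ℍ → ℂ) ∣[(12 : ℤ)] mapGL ℝ γ = Δ :=
  SlashInvariantFormClass.slash_action_eq CuspForm.discriminant _ ⟨γ, rfl⟩

theorem heckeDiagMatrix_eq (d : ℕ) [NeZero d] :
    heckeDiagMatrix d = upperTriangularGL d 0 1
      (by rw [mul_one]; exact_mod_cast NeZero.ne d) := by
  simp [heckeDiagMatrix, NeZero.ne d]

/-- `Δ(d·gτ) = (cτ+δ)^12 e^{-12} Δ((aτ+b)/e)`. -/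
theorem discriminant_diag_smul (d : ℕ) [NeZero d] (g : SL(2, ℤ)) :
    ∃ (a e : ℕ) (_ : NeZero a) (_ : NeZero e) (b : ℤ), a * e = d ∧ a = Int.gcd d (g 1 0) ∧
      ∀ τ : ℍ, Δ (heckeDiagMatrix d • (g • τ)) =
        denom g τ ^ (12 : ℤ) * ((e : ℂ) ^ 12)⁻¹ * Δ (tri a e b τ) := by
  obtain ⟨γ', a, b, e, ha, he, hae, hag, h⟩ := hermite d g
  lift a to ℕ using ha.le
  lift e to ℕ using he.le
  have ha' : a ≠ 0 := by rintro rfl; simp at ha
  have he' : e ≠ 0 := by rintro rfl; simp at he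
  have : NeZero a := ⟨ha'⟩
  have : NeZero e := ⟨he'⟩
  refine ⟨a, e, inferInstance, inferInstance, b, by exact_mod_cast hae, by exact_mod_cast hag,
    fun τ => ?_⟩
  have hpos : (0 : ℝ) < ((a : ℤ) : ℝ) * ((e : ℤ) : ℝ) := by
    have h1 : (0 : ℝ) < a := by exact_mod_cast Nat.pos_of_ne_zero ha'
    have h2 : (0 : ℝ) < e := by exact_mod_cast Nat.pos_of_ne_zero he'
    push_cast
    exact mul_pos h1 h2
  have hd : (0 : ℝ) < (d : ℝ) * 1 := by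
    rw [mul_one]; exact_mod_cast Nat.pos_of_ne_zero (NeZero.ne d)
  have key := congrFun (congrArg (fun M => (Δ : ℍ → ℂ) ∣[(12 : ℤ)] M) (h hpos.ne')) τ
  simp only [SlashAction.slash_mul, discriminant_slash_mapGL] at key
  rw [slash_upperTriangularGL_apply 12 hpos] at key
  have h1 : ((Δ ∣[(12 : ℤ)] heckeDiagMatrix d) ∣[(12 : ℤ)] (mapGL ℝ) g) τ =
      (Δ ∣[(12 : ℤ)] heckeDiagMatrix d) (g • τ) * denom g τ ^ (-(12 : ℤ)) :=
    ModularForm.SL_slash_apply (Δ ∣[(12 : ℤ)] heckeDiagMatrix d) g τ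
  rw [h1, heckeDiagMatrix_eq, slash_upperTriangularGL_apply 12 hd] at key
  rw [heckeDiagMatrix_eq]
  have hden : denom g τ ≠ 0 := denom_ne_zero _ τ
  have hdC : (d : ℂ) ≠ 0 := by exact_mod_cast NeZero.ne d
  have heC : (e : ℂ) ≠ 0 := by exact_mod_cast he'
  have haeC : (a : ℂ) * e = d := by exact_mod_cast hae
  have htri : tri a e b τ = upperTriangularGL ((a : ℤ) : ℝ) b ((e : ℤ) : ℝ) hpos.ne' • τ := by
    simp [tri]
  rw [htri]
  generalize Δ (upperTriangularGL (d : ℝ) 0 1 _ • g • τ) = X at key ⊢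
  generalize Δ (upperTriangularGL ((a : ℤ) : ℝ) b ((e : ℤ) : ℝ) _ • τ) = Y at key ⊢
  generalize denom g τ = D at key hden ⊢
  have hc : (((((a : ℤ) : ℝ) * ((e : ℤ) : ℝ) : ℝ)) : ℂ) = d := by
    push_cast; exact haeC
  have hc' : (((d : ℝ) * 1 : ℝ) : ℂ) = d := by push_cast; ring
  rw [hc, hc'] at key
  have hd11 : (d : ℂ) ^ ((12 : ℤ) - 1) ≠ 0 := zpow_ne_zero _ hdC
  have key2 : X * D ^ (-(12 : ℤ)) = ((e : ℂ)) ^ (-(12 : ℤ)) * Y := by
    apply mul_left_cancel₀ hd11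
    have : ((((e : ℤ) : ℝ)) : ℂ) = e := by push_cast; rfl
    rw [this] at key
    simp only [Complex.ofReal_one, one_zpow, mul_one] at key
    linear_combination key
  have hD12 : D ^ (12 : ℤ) ≠ 0 := zpow_ne_zero _ hden
  rw [zpow_neg, zpow_neg] at key2
  have he12 : (e : ℂ) ^ (12 : ℤ) = (e : ℂ) ^ 12 := by norm_cast
  rw [he12] at key2
  field_simp at key2 ⊢
  linear_combination key2

/-- `Δ(d·γτ) = (cτ+δ)^12 Δ(dτ)` for `γ ∈ Γ₀(d)`. -/
theorem discriminant_diag_smul_of_mem_Gamma0 (d : ℕ) [NeZero d] (γ : SL(2, ℤ))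
    (hγ : γ ∈ Gamma0 d) (τ : ℍ) :
    Δ (heckeDiagMatrix d • (γ • τ)) = denom γ τ ^ (12 : ℤ) * Δ (heckeDiagMatrix d • τ) := by
  obtain ⟨γ', h⟩ := heckeDiag_mul_Gamma0 d γ hγ
  have hd : (0 : ℝ) < (d : ℝ) * 1 := by
    rw [mul_one]; exact_mod_cast Nat.pos_of_ne_zero (NeZero.ne d)
  have key := congrFun (congrArg (fun M => (Δ : ℍ → ℂ) ∣[(12 : ℤ)] M) h) τ
  simp only [SlashAction.slash_mul, discriminant_slash_mapGL] at key
  have h1 : ((Δ ∣[(12 : ℤ)] heckeDiagMatrix d) ∣[(12 : ℤ)] (mapGL ℝ) γ) τ =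
      (Δ ∣[(12 : ℤ)] heckeDiagMatrix d) (γ • τ) * denom γ τ ^ (-(12 : ℤ)) :=
    ModularForm.SL_slash_apply (Δ ∣[(12 : ℤ)] heckeDiagMatrix d) γ τ
  rw [h1, heckeDiagMatrix_eq, slash_upperTriangularGL_apply 12 hd,
    slash_upperTriangularGL_apply 12 hd] at key
  rw [heckeDiagMatrix_eq]
  have hden : denom γ τ ≠ 0 := denom_ne_zero _ τ
  have hdC : (d : ℂ) ≠ 0 := by exact_mod_cast NeZero.ne d
  generalize Δ (upperTriangularGL (d : ℝ) 0 1 _ • γ • τ) = X at key ⊢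
  generalize Δ (upperTriangularGL (d : ℝ) 0 1 _ • τ) = Y at key ⊢
  generalize denom γ τ = D at key hden ⊢
  have hc' : (((d : ℝ) * 1 : ℝ) : ℂ) = d := by push_cast; ring
  rw [hc'] at key
  have hd11 : (d : ℂ) ^ ((12 : ℤ) - 1) ≠ 0 := zpow_ne_zero _ hdC
  have key2 : X * D ^ (-(12 : ℤ)) = Y := by
    apply mul_left_cancel₀ hd11
    simp only [Complex.ofReal_one, one_zpow, mul_one] at key
    linear_combination key
  have hD12 : D ^ (12 : ℤ) ≠ 0 := zpow_ne_zero _ hden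
  rw [zpow_neg] at key2
  field_simp at key2
  rw [key2]
  norm_cast

/-- The function `τ ↦ Δ(dτ)/Δ(τ)`. -/
def ratio (d : ℕ) (τ : ℍ) : ℂ := Δ (heckeDiagMatrix d • τ) / Δ τ

theorem ratio_ne_zero (d : ℕ) (τ : ℍ) : ratio d τ ≠ 0 :=
  div_ne_zero (discriminant_ne_zero _) (discriminant_ne_zero _)

/-- `Δ(d·gτ)/Δ(gτ) = e^{-12} Δ((aτ+b)/e)/Δ(τ)` with `a = gcd(d, c)`, `a e = d`. -/
theorem ratio_smul (d : ℕ) [NeZero d] (g : SL(2, ℤ)) :
    ∃ (a e : ℕ) (_ : NeZero a) (_ : NeZero e) (b : ℤ), a * e = d ∧ a = Int.gcd d (g 1 0) ∧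
      ∀ τ : ℍ, ratio d (g • τ) = ((e : ℂ) ^ 12)⁻¹ * (Δ (tri a e b τ) / Δ τ) := by
  obtain ⟨a, e, i1, i2, b, h1, h2, h3⟩ := discriminant_diag_smul d g
  refine ⟨a, e, i1, i2, b, h1, h2, fun τ => ?_⟩
  rw [ratio, h3, JPoly.discriminant_smul]
  have hD12 : denom g τ ^ (12 : ℤ) ≠ 0 := zpow_ne_zero _ (denom_ne_zero _ τ)
  have := discriminant_ne_zero τ
  field_simp

theorem ratio_smul_of_mem_Gamma0 {d N : ℕ} [NeZero d] (hd : d ∣ N) {γ : SL(2, ℤ)}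
    (hγ : γ ∈ Gamma0 N) (τ : ℍ) : ratio d (γ • τ) = ratio d τ := by
  rw [ratio, discriminant_diag_smul_of_mem_Gamma0 d γ (Gamma0_le_of_dvd hd hγ),
    JPoly.discriminant_smul, ratio]
  have hD12 : denom γ τ ^ (12 : ℤ) ≠ 0 := zpow_ne_zero _ (denom_ne_zero _ τ)
  have := discriminant_ne_zero τ
  field_simp

end Fermat.Agent.S28
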